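/-
S18 / Program J, piece D6 (helper80): residue plumbing for the abstract setup, part 1.

Data: a valuation subring `A` of `K`, a valuation subring `O` of `F ⊇ K`, an element `x : F`,
with the three hypotheses
* `hmem`   : `O ∩ K = A`,
* `hgauss` : a polynomial in `x` with coefficients in `A`, one of them a unit of `A`, is a unit of `O`,
* `hscale` : the value group of `O` is that of `A`.
This file: `OL = O ∩ K(x)`, primitive polynomials, transcendence of `x`, and the description of the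
elements of `K(x)` as `c * p(x) / q(x)` with `p, q` primitive.  Mathlib only.
-/
import Mathlib

set_option autoImplicit false

open IntermediateField Polynomial

noncomputable section

namespace Fermat.Agent.S18.H80

variable {K : Type*} [Field K] (A : ValuationSubring K) {F : Type*} [Field F] [Algebra K F]
  (O : ValuationSubring F) (x : F)

/-- `O ∩ K(x)` as a valuation subring of `K(x)`. -/
def OL : ValuationSubring K⟮x⟯ := O.comap (algebraMap K⟮x⟯ F)

theorem mem_OL (r : K⟮x⟯) : r ∈ OL O x ↔ (r : F) ∈ O := Iff.rfl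

/-- A polynomial with coefficients in `A`, one of which is a unit of `A`. -/
def IsPrim (p : K[X]) : Prop :=
  (∀ i, p.coeff i ∈ A) ∧ ∃ i, p.coeff i ≠ 0 ∧ (p.coeff i)⁻¹ ∈ A

variable {A O x}

theorem IsPrim.ne_zero {p : K[X]} (hp : IsPrim A p) : p ≠ 0 := by
  rintro rfl
  obtain ⟨-, i, hi, -⟩ := hp
  simp at hi

/-- Every nonzero polynomial is a constant multiple of a primitive one. -/
theorem exists_smul_isPrim {p : K[X]} (hp : p ≠ 0) :
    ∃ c : K, c ≠ 0 ∧ IsPrim A (C c * p) := by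
  classical
  have hne : p.support.Nonempty := by
    rwa [Finset.nonempty_iff_ne_empty, Ne, Polynomial.support_eq_empty]
  obtain ⟨i₀, hi₀, hmax⟩ := Finset.exists_max_image p.support
    (fun i => A.valuation (p.coeff i)) hne
  have hc0 : p.coeff i₀ ≠ 0 := Polynomial.mem_support_iff.1 hi₀
  refine ⟨(p.coeff i₀)⁻¹, inv_ne_zero hc0, ?_, i₀, ?_, ?_⟩
  · intro i
    rw [Polynomial.coeff_C_mul]
    by_cases hi : p.coeff i = 0
    · rw [hi, mul_zero]; exact A.zero_mem
    · have h1 := hmax i (Polynomial.mem_support_iff.2 hi)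
      rw [← A.valuation_le_one_iff, map_mul, map_inv₀]
      have h2 : A.valuation (p.coeff i₀) ≠ 0 := (_root_.map_ne_zero _).2 hc0
      rw [inv_mul_le_iff₀ (zero_lt_iff.2 h2), mul_one]
      exact h1
  · rw [Polynomial.coeff_C_mul, inv_mul_cancel₀ hc0]; exact one_ne_zero
  · rw [Polynomial.coeff_C_mul, inv_mul_cancel₀ hc0, inv_one]; exact A.one_mem

theorem isPrim_iff_valuation {p : K[X]} :
    IsPrim A p ↔ (∀ i, A.valuation (p.coeff i) ≤ 1) ∧ ∃ i, A.valuation (p.coeff i) = 1 := by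
  unfold IsPrim
  simp only [A.valuation_le_one_iff]
  refine and_congr_right fun hall => exists_congr fun i => ?_
  constructor
  · rintro ⟨h0, hinv⟩
    refine le_antisymm ((A.valuation_le_one_iff _).2 (hall i)) ?_
    have h1 := (A.valuation_le_one_iff _).2 hinv
    rw [map_inv₀] at h1
    have h2 : A.valuation (p.coeff i) ≠ 0 := (_root_.map_ne_zero _).2 h0
    exact (inv_le_one₀ (zero_lt_iff.2 h2)).1 h1
  · intro h1
    have h0 : p.coeff i ≠ 0 := by
      intro h; rw [h, map_zero] at h1; exact zero_ne_one h1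
    refine ⟨h0, ?_⟩
    rw [← A.valuation_le_one_iff, map_inv₀, h1, inv_one]

section
variable (hmem : ∀ a : K, algebraMap K F a ∈ O ↔ a ∈ A)
  (hgauss : ∀ p : K[X], (∀ i, p.coeff i ∈ A) → (∃ i, p.coeff i ≠ 0 ∧ (p.coeff i)⁻¹ ∈ A) →
    aeval x p ∈ O ∧ (aeval x p)⁻¹ ∈ O)
include hgauss

theorem IsPrim.aeval_mem {p : K[X]} (hp : IsPrim A p) : aeval x p ∈ O := (hgauss p hp.1 hp.2).1

theorem IsPrim.inv_aeval_mem {p : K[X]} (hp : IsPrim A p) : (aeval x p)⁻¹ ∈ O :=
  (hgauss p hp.1 hp.2).2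

theorem x_mem : x ∈ O := by
  have h : IsPrim A (X : K[X]) := by
    refine ⟨fun i => ?_, 1, ?_, ?_⟩
    · rw [Polynomial.coeff_X]; split_ifs
      · exact A.one_mem
      · exact A.zero_mem
    · simp
    · simp [A.one_mem]
  simpa using h.aeval_mem hgauss

theorem x_inv_mem : x⁻¹ ∈ O := by
  have h : IsPrim A (X : K[X]) := by
    refine ⟨fun i => ?_, 1, ?_, ?_⟩
    · rw [Polynomial.coeff_X]; split_ifs
      · exact A.one_mem
      · exact A.zero_mem
    · simp
    · simp [A.one_mem]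
  simpa using h.inv_aeval_mem hgauss

include hmem

/-- `x` is transcendental over `K` (this needs `A ≠ ⊤`). -/
theorem aeval_ne_zero (hA : A ≠ ⊤) {p : K[X]} (hp : p ≠ 0) : aeval x p ≠ 0 := by
  intro h0
  obtain ⟨c, hc, hprim⟩ := exists_smul_isPrim (A := A) hp
  -- a nonzero nonunit `a⁻¹` of `A`
  obtain ⟨a, ha⟩ : ∃ a : K, a ∉ A := by
    by_contra hcon
    push Not at hcon
    exact hA (eq_top_iff.2 fun a _ => hcon a)
  have ha0 : a ≠ 0 := by rintro rfl; exact ha A.zero_mem
  have hπ : a⁻¹ ∈ A := (A.mem_or_inv_mem a).resolve_left ha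
  have hvπ : A.valuation a⁻¹ < 1 := by
    rw [← not_le]
    intro hle
    apply ha
    rw [← A.valuation_le_one_iff]
    rw [map_inv₀] at hle
    have h0 : A.valuation a ≠ 0 := (_root_.map_ne_zero _).2 ha0
    exact (one_le_inv₀ (zero_lt_iff.2 h0)).1 hle
  -- `q = c p + a⁻¹` is still primitive
  rw [isPrim_iff_valuation] at hprim
  obtain ⟨hcoef, i, hiu⟩ := hprim
  have hq : IsPrim A (C c * p + C a⁻¹) := by
    rw [isPrim_iff_valuation]
    refine ⟨fun j => ?_, i, ?_⟩
    · rw [Polynomial.coeff_add]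
      refine le_trans (A.valuation.map_add _ _) (max_le (hcoef j) ?_)
      rw [Polynomial.coeff_C]
      split_ifs
      · exact hvπ.le
      · simp
    · rw [Polynomial.coeff_add]
      have h1 : A.valuation ((C a⁻¹ : K[X]).coeff i) < A.valuation ((C c * p).coeff i) := by
        rw [hiu, Polynomial.coeff_C]
        split_ifs
        · exact hvπ
        · simp
      rw [Valuation.map_add_eq_of_lt_left _ h1, hiu]
  have h1 := hq.inv_aeval_mem hgauss
  have h2 : aeval x (C c * p + C a⁻¹) = algebraMap K F a⁻¹ := by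
    rw [map_add, map_mul, h0, mul_zero, zero_add, aeval_C]
  rw [h2, ← map_inv₀, inv_inv, hmem] at h1
  exact ha h1

/-- Membership in `O` of `c * p(x) / q(x)` for primitive `p, q`. -/
theorem mul_div_mem_iff (hA : A ≠ ⊤) {p q : K[X]} (hp : IsPrim A p) (hq : IsPrim A q) (c : K) :
    algebraMap K F c * aeval x p / aeval x q ∈ O ↔ c ∈ A := by
  have hp0 : aeval x p ≠ 0 := aeval_ne_zero hmem hgauss hA hp.ne_zero
  have hq0 : aeval x q ≠ 0 := aeval_ne_zero hmem hgauss hA hq.ne_zero
  rw [← hmem]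
  constructor
  · intro h
    have h1 := O.mul_mem _ _ (O.mul_mem _ _ h (hq.aeval_mem hgauss)) (hp.inv_aeval_mem hgauss)
    have h2 : algebraMap K F c * aeval x p / aeval x q * aeval x q * (aeval x p)⁻¹
        = algebraMap K F c := by field_simp
    rwa [h2] at h1
  · intro h
    have h1 := O.mul_mem _ _ (O.mul_mem _ _ h (hp.aeval_mem hgauss)) (hq.inv_aeval_mem hgauss)
    rwa [← div_eq_mul_inv] at h1

/-- Every nonzero element of `K(x)` is `c * p(x) / q(x)` with `c ≠ 0` and `p, q` primitive. -/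
theorem exists_repr (hA : A ≠ ⊤) (r : K⟮x⟯) (hr : r ≠ 0) :
    ∃ (c : K) (p q : K[X]), c ≠ 0 ∧ IsPrim A p ∧ IsPrim A q ∧
      (r : F) = algebraMap K F c * aeval x p / aeval x q := by
  obtain ⟨p₁, q₁, hpq⟩ := (IntermediateField.mem_adjoin_simple_iff K (r : F)).1 r.2
  have hr0 : (r : F) ≠ 0 := by
    intro h; exact hr (Subtype.ext h)
  have hp₁ : p₁ ≠ 0 := by
    rintro rfl; rw [map_zero, zero_div] at hpq; exact hr0 hpq
  have hq₁ : q₁ ≠ 0 := by
    rintro rfl; rw [map_zero, div_zero] at hpq; exact hr0 hpq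
  obtain ⟨c₁, hc₁, hP⟩ := exists_smul_isPrim (A := A) hp₁
  obtain ⟨c₂, hc₂, hQ⟩ := exists_smul_isPrim (A := A) hq₁
  refine ⟨c₂ / c₁, C c₁ * p₁, C c₂ * q₁, div_ne_zero hc₂ hc₁, hP, hQ, ?_⟩
  have hq0 : aeval x q₁ ≠ 0 := aeval_ne_zero hmem hgauss hA hq₁
  have h1 : algebraMap K F c₁ ≠ 0 := (_root_.map_ne_zero _).2 hc₁
  have h2 : algebraMap K F c₂ ≠ 0 := (_root_.map_ne_zero _).2 hc₂
  rw [hpq, map_mul, map_mul, aeval_C, aeval_C, map_div₀]
  field_simp

end

end Fermat.Agent.S18.H80
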