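/-
S18 / Program J, piece D6 (helper80): residue plumbing for the abstract setup, part 2.

`ResData A O x θ` bundles the hypotheses (fields of the abstract setup, with `A ≠ ⊤`).  This file:
`θ` is a `K(x)`-basis of `F`; `O = ⊕ (O ∩ K(x)) θ_i`; `m_O = ⊕ m_{O ∩ K(x)} θ_i`.  Mathlib only.
-/
import Fermat.Agent.S18.H80.Gauss

set_option autoImplicit false

open IntermediateField Polynomial

noncomputable section

namespace Fermat.Agent.S18.H80

variable {K : Type*} [Field K] {F : Type*} [Field F] [Algebra K F]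

/-- The hypotheses used by the residue plumbing: `O ∩ K = A ≠ ⊤`, Gauss property, equal value
groups, and an orthonormal `K(x)`-basis `θ` of `F` with unit Gram determinant. -/
structure ResData (A : ValuationSubring K) (O : ValuationSubring F) (x : F) {μ : ℕ}
    (θ : Fin μ → F) : Prop where
  ne_top : A ≠ ⊤
  mem_iff : ∀ a : K, algebraMap K F a ∈ O ↔ a ∈ A
  gauss : ∀ p : K[X], (∀ i, p.coeff i ∈ A) → (∃ i, p.coeff i ≠ 0 ∧ (p.coeff i)⁻¹ ∈ A) →
    aeval x p ∈ O ∧ (aeval x p)⁻¹ ∈ O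
  scale : ∀ f : F, f ≠ 0 → ∃ c : K, c ≠ 0 ∧ algebraMap K F c * f ∈ O ∧
    (algebraMap K F c * f)⁻¹ ∈ O
  finite : FiniteDimensional K⟮x⟯ F
  finrank_eq : Module.finrank K⟮x⟯ F = μ
  orth : ∀ r : Fin μ → K⟮x⟯, (∑ i, (r i : F) * θ i) ∈ O ↔ ∀ i, (r i : F) ∈ O
  gram : (((Matrix.of fun i j : Fin μ => Algebra.trace K⟮x⟯ F (θ i * θ j)).det : K⟮x⟯) : F)⁻¹ ∈ O

namespace ResData

variable {A : ValuationSubring K} {O : ValuationSubring F} {x : F} {μ : ℕ} {θ : Fin μ → F}

theorem theta_mem (D : ResData A O x θ) (i : Fin μ) : θ i ∈ O := by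
  classical
  have h := (D.orth (Pi.single i (1 : K⟮x⟯) : Fin μ → K⟮x⟯)).2 (fun j => by
    by_cases hj : j = i
    · subst hj; simp [O.one_mem]
    · simp [Pi.single_eq_of_ne hj, O.zero_mem])
  have h1 : (∑ j, (((Pi.single i (1 : K⟮x⟯) : Fin μ → K⟮x⟯) j : K⟮x⟯) : F) * θ j) = θ i := by
    rw [Finset.sum_eq_single i]
    · simp
    · intro j _ hj; simp [Pi.single_eq_of_ne hj]
    · intro hi; exact absurd (Finset.mem_univ i) hi
  rwa [h1] at h

theorem const_mem_nonunits_iff (D : ResData A O x θ) (a : K) :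
    algebraMap K F a ∈ O.nonunits ↔ a ∈ A.nonunits := by
  rw [ValuationSubring.mem_nonunits_iff_or, ValuationSubring.mem_nonunits_iff_or, ← map_inv₀,
    D.mem_iff, map_eq_zero]

theorem exists_not_mem (D : ResData A O x θ) : ∃ a : K, a ∉ A := by
  by_contra hcon
  push Not at hcon
  exact D.ne_top (eq_top_iff.2 fun a _ => hcon a)

theorem linearIndependent (D : ResData A O x θ) : LinearIndependent K⟮x⟯ θ := by
  rw [Fintype.linearIndependent_iff]
  intro g hg i
  by_contra hgi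
  obtain ⟨a, ha⟩ := D.exists_not_mem
  set c : K⟮x⟯ := algebraMap K K⟮x⟯ a * (g i)⁻¹ with hc
  have h0 : (∑ j, ((c * g j : K⟮x⟯) : F) * θ j) = 0 := by
    have h1 : (∑ j, ((c * g j : K⟮x⟯) : F) * θ j) = (c : F) * ∑ j, g j • θ j := by
      rw [Finset.mul_sum]
      refine Finset.sum_congr rfl fun j _ => ?_
      rw [Algebra.smul_def, IntermediateField.algebraMap_apply]
      push_cast
      ring
    rw [h1, hg, mul_zero]
  have h2 := (D.orth (fun j => c * g j)).1 (by rw [h0]; exact O.zero_mem) i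
  have h3 : ((c * g i : K⟮x⟯) : F) = algebraMap K F a := by
    rw [hc, mul_assoc, inv_mul_cancel₀ hgi, mul_one]
    rfl
  rw [h3, D.mem_iff] at h2
  exact ha h2

theorem mu_pos (D : ResData A O x θ) : 0 < μ := by
  have := D.finite
  rw [← D.finrank_eq]
  exact Module.finrank_pos

/-- `θ` as a `K(x)`-basis of `F`. -/
def basisF (D : ResData A O x θ) : Module.Basis (Fin μ) K⟮x⟯ F :=
  haveI : Nonempty (Fin μ) := ⟨⟨0, D.mu_pos⟩⟩
  basisOfLinearIndependentOfCardEqFinrank D.linearIndependent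
    (by rw [Fintype.card_fin, D.finrank_eq])

@[simp] theorem basisF_apply (D : ResData A O x θ) (i : Fin μ) : D.basisF i = θ i := by
  have : Nonempty (Fin μ) := ⟨⟨0, D.mu_pos⟩⟩
  simp [basisF]

theorem coe_basisF (D : ResData A O x θ) : ⇑D.basisF = θ := funext D.basisF_apply

theorem sum_repr (D : ResData A O x θ) (f : F) :
    ∑ i, ((D.basisF.repr f i : K⟮x⟯) : F) * θ i = f := by
  conv_rhs => rw [← D.basisF.sum_repr f]
  refine Finset.sum_congr rfl fun i _ => ?_
  rw [Algebra.smul_def, IntermediateField.algebraMap_apply, D.basisF_apply]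

theorem repr_sum (D : ResData A O x θ) (r : Fin μ → K⟮x⟯) (i : Fin μ) :
    D.basisF.repr (∑ j, ((r j : K⟮x⟯) : F) * θ j) i = r i := by
  have h : (∑ j, ((r j : K⟮x⟯) : F) * θ j) = ∑ j, r j • D.basisF j := by
    refine Finset.sum_congr rfl fun j _ => ?_
    rw [Algebra.smul_def, IntermediateField.algebraMap_apply, D.basisF_apply]
  rw [h, D.basisF.repr_sum_self]

/-- `O = ⊕ (O ∩ K(x)) θ_i`. -/
theorem mem_iff_repr (D : ResData A O x θ) (f : F) :
    f ∈ O ↔ ∀ i, ((D.basisF.repr f i : K⟮x⟯) : F) ∈ O := by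
  rw [← D.orth, D.sum_repr]

theorem repr_mem (D : ResData A O x θ) {f : F} (hf : f ∈ O) (i : Fin μ) :
    ((D.basisF.repr f i : K⟮x⟯) : F) ∈ O := (D.mem_iff_repr f).1 hf i

/-- A nonzero nonunit of `O` is a nonunit constant times a unit. -/
theorem exists_const_of_nonunit (D : ResData A O x θ) {y : F} (hy : y ∈ O.nonunits)
    (hy0 : y ≠ 0) : ∃ c : K, c ≠ 0 ∧ c⁻¹ ∈ A.nonunits ∧ algebraMap K F c * y ∈ O := by
  obtain ⟨c, hc, h1, h2⟩ := D.scale y hy0
  refine ⟨c, hc, ?_, h1⟩
  rw [← D.const_mem_nonunits_iff]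
  rw [ValuationSubring.mem_nonunits_iff] at hy ⊢
  -- `v(c y) = 1` and `v(y) < 1`
  have hv : O.valuation (algebraMap K F c * y) = 1 := by
    refine le_antisymm ((O.valuation_le_one_iff _).2 h1) ?_
    have h3 := (O.valuation_le_one_iff _).2 h2
    rw [map_inv₀] at h3
    have h4 : O.valuation (algebraMap K F c * y) ≠ 0 :=
      (_root_.map_ne_zero _).2 (mul_ne_zero ((_root_.map_ne_zero _).2 hc) hy0)
    exact (inv_le_one₀ (zero_lt_iff.2 h4)).1 h3
  -- so `c⁻¹ = y * (c y)⁻¹` is a nonunit of `O`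
  have h6 : algebraMap K F c⁻¹ = y * (algebraMap K F c * y)⁻¹ := by
    have hcF : algebraMap K F c ≠ 0 := (_root_.map_ne_zero _).2 hc
    rw [map_inv₀]; field_simp
  rw [h6, map_mul, map_inv₀, hv, inv_one, mul_one]
  exact hy

/-- `m_O = ⊕ m_{O ∩ K(x)} θ_i`. -/
theorem sum_mem_nonunits_iff (D : ResData A O x θ) (r : Fin μ → K⟮x⟯) :
    (∑ i, (r i : F) * θ i) ∈ O.nonunits ↔ ∀ i, (r i : F) ∈ O.nonunits := by
  constructor
  · intro hy i
    by_cases hy0 : (∑ i, (r i : F) * θ i) = 0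
    · have h1 := D.repr_sum r i
      rw [hy0, map_zero] at h1
      have h2 : r i = 0 := by simpa using h1.symm
      rw [h2]
      simp
    · obtain ⟨c, hc, hcA, hcy⟩ := D.exists_const_of_nonunit hy hy0
      have e1 : ∀ j, ((algebraMap K K⟮x⟯ c * r j : K⟮x⟯) : F) = algebraMap K F c * (r j : F) :=
        fun j => rfl
      have h1 : (algebraMap K F c * ∑ i, (r i : F) * θ i)
          = ∑ i, ((algebraMap K K⟮x⟯ c * r i : K⟮x⟯) : F) * θ i := by
        rw [Finset.mul_sum]
        refine Finset.sum_congr rfl fun j _ => ?_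
        rw [e1, mul_assoc]
      rw [h1] at hcy
      have h2 := (D.orth _).1 hcy i
      have hcF : algebraMap K F c ≠ 0 := (_root_.map_ne_zero _).2 hc
      have h3 : (r i : F) = algebraMap K F c⁻¹ * ((algebraMap K K⟮x⟯ c * r i : K⟮x⟯) : F) := by
        rw [e1, map_inv₀]
        field_simp
      rw [h3, ValuationSubring.mem_nonunits_iff, map_mul]
      have h4 := (ValuationSubring.mem_nonunits_iff O).1 ((D.const_mem_nonunits_iff _).2 hcA)
      have h5 := (O.valuation_le_one_iff _).2 h2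
      calc O.valuation (algebraMap K F c⁻¹) * O.valuation ((algebraMap K K⟮x⟯ c * r i : K⟮x⟯) : F)
          ≤ O.valuation (algebraMap K F c⁻¹) * 1 := by gcongr
        _ < 1 := by rwa [mul_one]
  · intro h
    rw [ValuationSubring.mem_nonunits_iff]
    refine Valuation.map_sum_lt _ one_ne_zero fun i _ => ?_
    rw [map_mul]
    have h1 := (ValuationSubring.mem_nonunits_iff O).1 (h i)
    have h2 := (O.valuation_le_one_iff _).2 (D.theta_mem i)
    calc O.valuation (r i : F) * O.valuation (θ i) ≤ O.valuation (r i : F) * 1 := by gcongr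
      _ < 1 := by rwa [mul_one]

theorem mem_nonunits_iff_repr (D : ResData A O x θ) (f : F) :
    f ∈ O.nonunits ↔ ∀ i, ((D.basisF.repr f i : K⟮x⟯) : F) ∈ O.nonunits := by
  rw [← D.sum_mem_nonunits_iff, D.sum_repr]

end ResData

end Fermat.Agent.S18.H80
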