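/-
S18 / Program J, piece D6 (helper80): residue plumbing for the abstract setup, part 3.

Residue fields `κ_L = ResidueField (O ∩ K(x))` and `κ = ResidueField O`; `κ` is an algebra over
`κ_L` (Mathlib instance for local homs); the reductions of `θ` form a `κ_L`-basis of `κ`; the
matrix of multiplication by `f ∈ O` has entries in `O ∩ K(x)` and commutes with reduction.
Mathlib only.
-/
import Fermat.Agent.S18.H80.Coord

set_option autoImplicit false

open IntermediateField Polynomial IsLocalRing

noncomputable section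

namespace Fermat.Agent.S18.H80

variable {K : Type*} [Field K] {F : Type*} [Field F] [Algebra K F]

section Instances

variable (O : ValuationSubring F) (x : F)

/-! Shortcut instances for `↥(OL O x)`: without them instance search first tries the
`SetLike.GradeZero` instances on the application `OL O x`, which is very slow. -/

instance instCommRingOL : CommRing ↥(OL (K := K) O x) := ValuationSubring.instCommRingSubtypeMem _
instance instRingOL : Ring ↥(OL (K := K) O x) := CommRing.toRing
instance instCommSemiringOL : CommSemiring ↥(OL (K := K) O x) := CommRing.toCommSemiring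
instance instSemiringOL : Semiring ↥(OL (K := K) O x) := Ring.toSemiring
instance instIsDomainOL : IsDomain ↥(OL (K := K) O x) := ValuationSubring.instIsDomainSubtypeMem _
instance instIsLocalRingOL : IsLocalRing ↥(OL (K := K) O x) := ValuationRing.isLocalRing _
instance instAlgebraOLField : Algebra ↥(OL (K := K) O x) K⟮x⟯ :=
  ValuationSubring.instAlgebraSubtypeMem _

/-- The inclusion `O ∩ K(x) → O`. -/
def inclOL : ↥(OL (K := K) O x) →+* ↥O where
  toFun r := ⟨((r : K⟮x⟯) : F), r.2⟩
  map_one' := rfl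
  map_mul' _ _ := rfl
  map_zero' := rfl
  map_add' _ _ := rfl

instance instAlgebraOL : Algebra ↥(OL (K := K) O x) ↥O := (inclOL O x).toAlgebra

theorem algebraMap_OL_coe (r : ↥(OL (K := K) O x)) :
    ((algebraMap ↥(OL (K := K) O x) ↥O r : ↥O) : F) = ((r : K⟮x⟯) : F) := rfl

instance instIsLocalHomOL : IsLocalHom (algebraMap ↥(OL (K := K) O x) ↥O) := by
  constructor
  intro r hr
  obtain ⟨s, hs⟩ := isUnit_iff_exists_inv.1 hr
  have h1 : ((r : K⟮x⟯) : F) * (s : F) = 1 := congrArg Subtype.val hs
  have hr0 : (r : K⟮x⟯) ≠ 0 := by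
    intro h
    rw [h] at h1
    simp at h1
  have h2 : (((r : K⟮x⟯)⁻¹ : K⟮x⟯) : F) = (s : F) := by
    rw [IntermediateField.coe_inv]
    exact inv_eq_of_mul_eq_one_right h1
  refine isUnit_iff_exists_inv.2 ⟨⟨(r : K⟮x⟯)⁻¹, ?_⟩, ?_⟩
  · rw [mem_OL, h2]; exact s.2
  · apply Subtype.ext
    exact mul_inv_cancel₀ hr0

/-- Membership in the maximal ideal of `O ∩ K(x)`, read in `F`. -/
theorem mem_maximalIdeal_OL_iff (r : ↥(OL (K := K) O x)) :
    r ∈ maximalIdeal ↥(OL (K := K) O x) ↔ ((r : K⟮x⟯) : F) ∈ O.nonunits := by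
  rw [ValuationSubring.mem_nonunits_iff_exists_mem_maximalIdeal, mem_maximalIdeal, mem_nonunits_iff]
  constructor
  · intro h
    refine ⟨r.2, ?_⟩
    rw [mem_maximalIdeal, mem_nonunits_iff]
    intro hu
    exact h ((isUnit_map_iff (algebraMap ↥(OL (K := K) O x) ↥O) r).1 hu)
  · rintro ⟨h1, h2⟩ hu
    rw [mem_maximalIdeal, mem_nonunits_iff] at h2
    exact h2 (hu.map (algebraMap ↥(OL (K := K) O x) ↥O))

theorem mem_maximalIdeal_iff (f : ↥O) : f ∈ maximalIdeal ↥O ↔ (f : F) ∈ O.nonunits := by
  rw [ValuationSubring.mem_nonunits_iff_exists_mem_maximalIdeal]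
  exact ⟨fun h => ⟨f.2, h⟩, fun ⟨_, h⟩ => h⟩

end Instances

namespace ResData

variable {A : ValuationSubring K} {O : ValuationSubring F} {x : F} {μ : ℕ} {θ : Fin μ → F}

/-- The reduction of `θ i`. -/
def thetaBar (D : ResData A O x θ) (i : Fin μ) : ResidueField ↥O :=
  residue ↥O ⟨θ i, D.theta_mem i⟩

theorem sum_mem (D : ResData A O x θ) (r : Fin μ → ↥(OL (K := K) O x)) :
    (∑ i, ((r i : K⟮x⟯) : F) * θ i) ∈ O :=
  (D.orth (fun i => (r i : K⟮x⟯))).2 fun i => (r i).2

/-- Reduction of a combination of the `θ i` with coefficients in `O ∩ K(x)`. -/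
theorem sum_residue_smul_thetaBar (D : ResData A O x θ) (r : Fin μ → ↥(OL (K := K) O x)) :
    ∑ i, residue ↥(OL (K := K) O x) (r i) • D.thetaBar i
      = residue ↥O ⟨∑ i, ((r i : K⟮x⟯) : F) * θ i, D.sum_mem r⟩ := by
  have h : (⟨∑ i, ((r i : K⟮x⟯) : F) * θ i, D.sum_mem r⟩ : ↥O)
      = ∑ i, algebraMap ↥(OL (K := K) O x) ↥O (r i) * ⟨θ i, D.theta_mem i⟩ := by
    apply Subtype.ext
    simp [algebraMap_OL_coe]
  rw [h, map_sum]
  refine Finset.sum_congr rfl fun i _ => ?_
  rw [Algebra.smul_def, ResidueField.algebraMap_residue, thetaBar, map_mul]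

theorem linearIndependent_thetaBar (D : ResData A O x θ) :
    LinearIndependent (ResidueField ↥(OL (K := K) O x)) D.thetaBar := by
  rw [Fintype.linearIndependent_iff]
  intro g hg i
  choose r hr using fun i => residue_surjective (g i)
  have h1 : ∑ i, residue ↥(OL (K := K) O x) (r i) • D.thetaBar i = 0 := by
    simpa [hr] using hg
  rw [D.sum_residue_smul_thetaBar, residue_eq_zero_iff, mem_maximalIdeal_iff,
    D.sum_mem_nonunits_iff] at h1
  rw [← hr i, residue_eq_zero_iff, mem_maximalIdeal_OL_iff]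
  exact h1 i

theorem span_thetaBar (D : ResData A O x θ) :
    ⊤ ≤ Submodule.span (ResidueField ↥(OL (K := K) O x)) (Set.range D.thetaBar) := by
  intro y _
  obtain ⟨f, rfl⟩ := residue_surjective y
  have h1 : f = ⟨∑ i, ((D.basisF.repr (f : F) i : K⟮x⟯) : F) * θ i,
      by rw [D.sum_repr]; exact f.2⟩ := by
    apply Subtype.ext
    exact (D.sum_repr _).symm
  have h2 := D.sum_residue_smul_thetaBar
    (fun i => (⟨D.basisF.repr (f : F) i, D.repr_mem f.2 i⟩ : ↥(OL (K := K) O x)))
  rw [h1]
  rw [← h2]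
  exact Submodule.sum_mem _ fun i _ =>
    Submodule.smul_mem _ _ (Submodule.subset_span (Set.mem_range_self i))

/-- The reductions of `θ` as a basis of the residue field of `O` over that of `O ∩ K(x)`. -/
def basisRes (D : ResData A O x θ) :
    Module.Basis (Fin μ) (ResidueField ↥(OL (K := K) O x)) (ResidueField ↥O) :=
  Module.Basis.mk D.linearIndependent_thetaBar D.span_thetaBar

@[simp] theorem basisRes_apply (D : ResData A O x θ) (i : Fin μ) :
    D.basisRes i = D.thetaBar i := by
  simp [basisRes]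

theorem finrank_res (D : ResData A O x θ) :
    Module.finrank (ResidueField ↥(OL (K := K) O x)) (ResidueField ↥O) = μ := by
  rw [Module.finrank_eq_card_basis D.basisRes, Fintype.card_fin]

theorem finite_res (D : ResData A O x θ) :
    Module.Finite (ResidueField ↥(OL (K := K) O x)) (ResidueField ↥O) :=
  Module.Finite.of_basis D.basisRes

/-- The matrix of multiplication by `f ∈ O` in the basis `θ`; its entries lie in `O ∩ K(x)`. -/
def mulMat (D : ResData A O x θ) (f : ↥O) : Matrix (Fin μ) (Fin μ) ↥(OL (K := K) O x) :=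
  fun i j => ⟨D.basisF.repr ((f : F) * θ j) i, D.repr_mem (O.mul_mem _ _ f.2 (D.theta_mem j)) i⟩

theorem mulMat_map_coe (D : ResData A O x θ) (f : ↥O) :
    (D.mulMat f).map (algebraMap ↥(OL (K := K) O x) K⟮x⟯)
      = Algebra.leftMulMatrix D.basisF (f : F) := by
  ext i j
  rw [Matrix.map_apply, Algebra.leftMulMatrix_eq_repr_mul, D.basisF_apply]
  rfl

theorem mulMat_map_residue (D : ResData A O x θ) (f : ↥O) :
    (D.mulMat f).map (residue ↥(OL (K := K) O x))
      = Algebra.leftMulMatrix D.basisRes (residue ↥O f) := by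
  ext i j
  rw [Matrix.map_apply, Algebra.leftMulMatrix_eq_repr_mul, D.basisRes_apply]
  have h1 : residue ↥O f * D.thetaBar j
      = ∑ i, residue ↥(OL (K := K) O x) (D.mulMat f i j) • D.basisRes i := by
    simp only [D.basisRes_apply]
    rw [D.sum_residue_smul_thetaBar, thetaBar, ← map_mul]
    congr 1
    apply Subtype.ext
    exact (D.sum_repr _).symm
  rw [h1, D.basisRes.repr_sum_self]

end ResData

end Fermat.Agent.S18.H80
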