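/-
S18 / Program J, piece D6 (helper80): residue plumbing for the abstract setup, part 4.

Trace, norm, characteristic polynomial and Gram determinant with values in `O ∩ K(x)`, their
comparison with the generic fibre (`F / K(x)`) and with the special fibre (residue fields);
Cayley-Hamilton in `O`; separability of the residue extension.  Mathlib only.
-/
import Fermat.Agent.S18.H80.Resid

set_option autoImplicit false

open IntermediateField Polynomial IsLocalRing

noncomputable section

namespace Fermat.Agent.S18.H80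

variable {K : Type*} [Field K] {F : Type*} [Field F] [Algebra K F]

namespace ResData

variable {A : ValuationSubring K} {O : ValuationSubring F} {x : F} {μ : ℕ} {θ : Fin μ → F}

/-- Trace of `f ∈ O`, as an element of `O ∩ K(x)`. -/
def traceO (D : ResData A O x θ) (f : ↥O) : ↥(OL (K := K) O x) := (D.mulMat f).trace

/-- Norm of `f ∈ O`, as an element of `O ∩ K(x)`. -/
def normO (D : ResData A O x θ) (f : ↥O) : ↥(OL (K := K) O x) := (D.mulMat f).det

/-- Characteristic polynomial of `f ∈ O`, with coefficients in `O ∩ K(x)`. -/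
def charpolyO (D : ResData A O x θ) (f : ↥O) : (↥(OL (K := K) O x))[X] := (D.mulMat f).charpoly

theorem coe_traceO (D : ResData A O x θ) (f : ↥O) :
    ((D.traceO f : ↥(OL (K := K) O x)) : K⟮x⟯) = Algebra.trace K⟮x⟯ F (f : F) := by
  rw [Algebra.trace_eq_matrix_trace D.basisF, ← D.mulMat_map_coe, traceO]
  exact AddMonoidHom.map_trace (algebraMap ↥(OL (K := K) O x) K⟮x⟯) _

theorem residue_traceO (D : ResData A O x θ) (f : ↥O) :
    residue ↥(OL (K := K) O x) (D.traceO f)
      = Algebra.trace (ResidueField ↥(OL (K := K) O x)) (ResidueField ↥O) (residue ↥O f) := by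
  rw [Algebra.trace_eq_matrix_trace D.basisRes, ← D.mulMat_map_residue, traceO]
  exact AddMonoidHom.map_trace (residue ↥(OL (K := K) O x)) _

theorem coe_normO (D : ResData A O x θ) (f : ↥O) :
    ((D.normO f : ↥(OL (K := K) O x)) : K⟮x⟯) = Algebra.norm K⟮x⟯ (f : F) := by
  rw [Algebra.norm_eq_matrix_det D.basisF, ← D.mulMat_map_coe, normO]
  exact RingHom.map_det (algebraMap ↥(OL (K := K) O x) K⟮x⟯) _

theorem residue_normO (D : ResData A O x θ) (f : ↥O) :
    residue ↥(OL (K := K) O x) (D.normO f)
      = Algebra.norm (ResidueField ↥(OL (K := K) O x)) (residue ↥O f) := by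
  rw [Algebra.norm_eq_matrix_det D.basisRes, ← D.mulMat_map_residue, normO]
  exact RingHom.map_det (residue ↥(OL (K := K) O x)) _

theorem charpolyO_map_coe (D : ResData A O x θ) (f : ↥O) :
    (D.charpolyO f).map (algebraMap ↥(OL (K := K) O x) K⟮x⟯)
      = (Algebra.leftMulMatrix D.basisF (f : F)).charpoly := by
  rw [← D.mulMat_map_coe, charpolyO, Matrix.charpoly_map]

theorem charpolyO_map_residue (D : ResData A O x θ) (f : ↥O) :
    (D.charpolyO f).map (residue ↥(OL (K := K) O x))
      = (Algebra.leftMulMatrix D.basisRes (residue ↥O f)).charpoly := by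
  rw [← D.mulMat_map_residue, charpolyO, Matrix.charpoly_map]

theorem charpolyO_monic (D : ResData A O x θ) (f : ↥O) : (D.charpolyO f).Monic :=
  Matrix.charpoly_monic _

theorem charpolyO_natDegree (D : ResData A O x θ) (f : ↥O) : (D.charpolyO f).natDegree = μ := by
  rw [charpolyO, Matrix.charpoly_natDegree_eq_dim, Fintype.card_fin]

/-- Cayley-Hamilton on the generic fibre. -/
theorem aeval_charpoly_leftMulMatrix (D : ResData A O x θ) (f : F) :
    aeval f (Algebra.leftMulMatrix D.basisF f).charpoly = 0 := by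
  apply Algebra.leftMulMatrix_injective D.basisF
  rw [← Polynomial.aeval_algHom_apply, map_zero]
  exact Matrix.aeval_self_charpoly _

/-- Cayley-Hamilton in `O`: `f` is a root of its characteristic polynomial. -/
theorem eval₂_charpolyO (D : ResData A O x θ) (f : ↥O) :
    (D.charpolyO f).eval₂ (algebraMap ↥(OL (K := K) O x) ↥O) f = 0 := by
  apply Subtype.ext
  have h1 := Polynomial.hom_eval₂ (D.charpolyO f) (algebraMap ↥(OL (K := K) O x) ↥O)
    O.subtype f
  have h2 : O.subtype.comp (algebraMap ↥(OL (K := K) O x) ↥O)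
      = (algebraMap K⟮x⟯ F).comp (algebraMap ↥(OL (K := K) O x) K⟮x⟯) := rfl
  have h3 := D.aeval_charpoly_leftMulMatrix (f : F)
  rw [← D.charpolyO_map_coe, Polynomial.aeval_def, Polynomial.eval₂_map, ← h2] at h3
  change O.subtype _ = 0
  rw [h1]
  exact h3

/-- Cayley-Hamilton on the special fibre. -/
theorem eval₂_charpolyO_residue (D : ResData A O x θ) (f : ↥O) :
    ((D.charpolyO f).map (residue ↥(OL (K := K) O x))).eval₂
      (algebraMap (ResidueField ↥(OL (K := K) O x)) (ResidueField ↥O)) (residue ↥O f) = 0 := by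
  have h1 := Polynomial.hom_eval₂ (D.charpolyO f) (algebraMap ↥(OL (K := K) O x) ↥O)
    (residue ↥O) f
  rw [D.eval₂_charpolyO, map_zero] at h1
  rw [Polynomial.eval₂_map]
  have h2 : (algebraMap (ResidueField ↥(OL (K := K) O x)) (ResidueField ↥O)).comp
      (residue ↥(OL (K := K) O x))
      = (residue ↥O).comp (algebraMap ↥(OL (K := K) O x) ↥O) := by
    ext r
    exact ResidueField.algebraMap_residue r
  rw [h2]
  exact h1.symm

/-- The Gram determinant of `θ`, as an element of `O ∩ K(x)`. -/
def gramO (D : ResData A O x θ) : ↥(OL (K := K) O x) :=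
  (Matrix.of fun i j : Fin μ =>
    D.traceO (⟨θ i, D.theta_mem i⟩ * ⟨θ j, D.theta_mem j⟩)).det

theorem coe_gramO (D : ResData A O x θ) :
    ((D.gramO : ↥(OL (K := K) O x)) : K⟮x⟯)
      = (Matrix.of fun i j : Fin μ => Algebra.trace K⟮x⟯ F (θ i * θ j)).det := by
  have h := RingHom.map_det (algebraMap ↥(OL (K := K) O x) K⟮x⟯)
    (Matrix.of fun i j : Fin μ => D.traceO (⟨θ i, D.theta_mem i⟩ * ⟨θ j, D.theta_mem j⟩))
  rw [gramO]
  refine h.trans ?_
  congr 1
  refine Matrix.ext fun i j => ?_
  simp only [RingHom.mapMatrix_apply, Matrix.map_apply, Matrix.of_apply]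
  exact D.coe_traceO _

theorem coe_gramO_eq_discr (D : ResData A O x θ) :
    ((D.gramO : ↥(OL (K := K) O x)) : K⟮x⟯) = Algebra.discr K⟮x⟯ D.basisF := by
  rw [D.coe_gramO, Algebra.discr_def]
  congr 1
  ext i j
  simp [Algebra.traceMatrix_apply, Algebra.traceForm_apply]

theorem residue_gramO (D : ResData A O x θ) :
    residue ↥(OL (K := K) O x) D.gramO
      = Algebra.discr (ResidueField ↥(OL (K := K) O x)) D.basisRes := by
  have h := RingHom.map_det (residue ↥(OL (K := K) O x))
    (Matrix.of fun i j : Fin μ => D.traceO (⟨θ i, D.theta_mem i⟩ * ⟨θ j, D.theta_mem j⟩))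
  rw [gramO, Algebra.discr_def]
  refine h.trans ?_
  congr 1
  ext i j
  simp only [RingHom.mapMatrix_apply, Matrix.map_apply, Matrix.of_apply,
    Algebra.traceMatrix_apply, Algebra.traceForm_apply, D.basisRes_apply]
  rw [D.residue_traceO, map_mul]
  rfl

section CharZero

variable [CharZero K]

theorem gramO_ne_zero (D : ResData A O x θ) : D.gramO ≠ 0 := by
  have := D.finite
  intro h
  have h1 := D.coe_gramO_eq_discr
  rw [h] at h1
  exact Algebra.discr_not_zero_of_basis K⟮x⟯ D.basisF h1.symm

theorem isUnit_gramO (D : ResData A O x θ) : IsUnit D.gramO := by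
  have h0 := D.gramO_ne_zero
  have h1 := D.gram
  rw [← D.coe_gramO] at h1
  refine isUnit_iff_exists_inv.2 ⟨⟨(D.gramO : K⟮x⟯)⁻¹, ?_⟩, ?_⟩
  · rw [mem_OL, IntermediateField.coe_inv]; exact h1
  · apply Subtype.ext
    exact mul_inv_cancel₀ (by simpa using h0)

theorem discr_basisRes_ne_zero (D : ResData A O x θ) :
    Algebra.discr (ResidueField ↥(OL (K := K) O x)) D.basisRes ≠ 0 := by
  rw [← D.residue_gramO]
  intro h
  rw [residue_eq_zero_iff, mem_maximalIdeal, mem_nonunits_iff] at h
  exact h D.isUnit_gramO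

/-- The residue extension is separable. -/
theorem isSeparable_res (D : ResData A O x θ) :
    Algebra.IsSeparable (ResidueField ↥(OL (K := K) O x)) (ResidueField ↥O) := by
  have := D.finite_res
  have h1 : (Algebra.traceForm (ResidueField ↥(OL (K := K) O x))
      (ResidueField ↥O)).Nondegenerate := by
    refine LinearMap.BilinForm.nondegenerate_of_det_ne_zero _ D.basisRes ?_
    rw [← Algebra.traceMatrix_of_basis, ← Algebra.discr_def]
    exact D.discr_basisRes_ne_zero
  exact ((traceForm_nondegenerate_tfae _ _).out 0 2).2 h1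

end CharZero

end ResData

end Fermat.Agent.S18.H80
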