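/-
S18 / Program J, piece D6 (helper80): the residue plumbing applies to the abstract `Setup`.
-/
import Fermat.Agent.S18.H74.Setup
import Fermat.Agent.S18.H80.Trace

set_option autoImplicit false

open IntermediateField Polynomial IsLocalRing

noncomputable section

namespace Fermat.Agent.S18.H80

open Fermat.Agent.S18.H74

variable {K : Type*} [Field K] {A : ValuationSubring K} {F : Type*} [Field F] [Algebra K F]
  {O : ValuationSubring F} {x : F}

/-- The hypotheses of the residue plumbing hold for the orthonormal basis of a `Setup`. -/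
theorem exists_resData (hA : A ≠ ⊤) (hS : Setup K A F O x) :
    ∃ θ : Fin (Module.finrank K⟮x⟯ F) → F, ResData A O x θ := by
  obtain ⟨θ, hθ, hg⟩ := hS.basis
  exact ⟨θ, hA, hS.mem_iff, hS.gauss, hS.scale, hS.finite, rfl, hθ, hg⟩

/-- Variant for a given orthonormal family with unit Gram determinant. -/
theorem resData_of_setup (hA : A ≠ ⊤) (hS : Setup K A F O x)
    (θ : Fin (Module.finrank K⟮x⟯ F) → F)
    (hθ : ∀ r : Fin (Module.finrank K⟮x⟯ F) → K⟮x⟯,
      (∑ i, (r i : F) * θ i) ∈ O ↔ ∀ i, (r i : F) ∈ O)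
    (hg : ((gramDet K F x θ : K⟮x⟯) : F)⁻¹ ∈ O) : ResData A O x θ :=
  ⟨hA, hS.mem_iff, hS.gauss, hS.scale, hS.finite, rfl, hθ, hg⟩

end Fermat.Agent.S18.H80
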