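/-
S18 / Program J, piece D6 (helper80): residue plumbing, part 5 = (R5).

The residue field `κ_L` of `O ∩ K(x)` is the rational function field `k(x̄)` over the residue
field `k` of `A`: `x̄` is transcendental over `k` and every element of `κ_L` is a quotient of two
polynomials in `x̄` with coefficients in `k`.  Stated with explicit ring homomorphisms (no new
algebra instances).  Mathlib only.
-/
import Fermat.Agent.S18.H80.Resid

set_option autoImplicit false

open IntermediateField Polynomial IsLocalRing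

noncomputable section

namespace Fermat.Agent.S18.H80

variable {K : Type*} [Field K] {A : ValuationSubring K} {F : Type*} [Field F] [Algebra K F]
  {O : ValuationSubring F} {x : F}

section
variable (hmem : ∀ a : K, algebraMap K F a ∈ O ↔ a ∈ A)

/-- The inclusion `A → O ∩ K(x)`. -/
def inclAL : ↥A →+* ↥(OL (K := K) O x) where
  toFun a := ⟨algebraMap K K⟮x⟯ (a : K), (hmem a).2 a.2⟩
  map_one' := Subtype.ext (map_one _)
  map_mul' _ _ := Subtype.ext (map_mul _ _ _)
  map_zero' := Subtype.ext (map_zero _)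
  map_add' _ _ := Subtype.ext (map_add _ _ _)

theorem inclAL_coe (a : ↥A) :
    (((inclAL (x := x) hmem a : ↥(OL (K := K) O x)) : K⟮x⟯) : F) = algebraMap K F (a : K) := rfl

instance instIsLocalHomInclAL : IsLocalHom (inclAL (x := x) hmem) := by
  constructor
  intro a ha
  obtain ⟨s, hs⟩ := isUnit_iff_exists_inv.1 ha
  have h1 : algebraMap K F (a : K) * ((s : K⟮x⟯) : F) = 1 :=
    congrArg (fun t : ↥(OL (K := K) O x) => ((t : K⟮x⟯) : F)) hs
  have ha0 : (a : K) ≠ 0 := by
    intro h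
    rw [h, map_zero, zero_mul] at h1
    exact zero_ne_one h1
  have h2 : algebraMap K F (a : K)⁻¹ = ((s : K⟮x⟯) : F) := by
    rw [map_inv₀]
    exact inv_eq_of_mul_eq_one_right h1
  have h3 : (a : K)⁻¹ ∈ A := by
    rw [← hmem, h2]
    exact s.2
  refine isUnit_iff_exists_inv.2 ⟨⟨(a : K)⁻¹, h3⟩, ?_⟩
  apply Subtype.ext
  exact mul_inv_cancel₀ ha0

/-- The induced map of residue fields `k → κ_L`. -/
def resAL : ResidueField ↥A →+* ResidueField ↥(OL (K := K) O x) :=
  ResidueField.map (inclAL (x := x) hmem)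

theorem resAL_residue (a : ↥A) :
    resAL (x := x) hmem (residue ↥A a) = residue ↥(OL (K := K) O x) (inclAL (x := x) hmem a) :=
  ResidueField.map_residue _ a

variable (hgauss : ∀ p : K[X], (∀ i, p.coeff i ∈ A) → (∃ i, p.coeff i ≠ 0 ∧ (p.coeff i)⁻¹ ∈ A) →
    aeval x p ∈ O ∧ (aeval x p)⁻¹ ∈ O)

/-- `x` as an element of `O ∩ K(x)`. -/
def xL : ↥(OL (K := K) O x) :=
  ⟨AdjoinSimple.gen K x, show ((AdjoinSimple.gen K x : K⟮x⟯) : F) ∈ O from x_mem hgauss⟩

theorem xL_coe : (((xL hgauss : ↥(OL (K := K) O x)) : K⟮x⟯) : F) = x := rfl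

/-- The reduction of `x`. -/
def xBar : ResidueField ↥(OL (K := K) O x) := residue _ (xL hgauss)

/-- Evaluation at `x` of a polynomial with coefficients in `A`, as an element of `O ∩ K(x)`. -/
def evalL (p : (↥A)[X]) : ↥(OL (K := K) O x) := p.eval₂ (inclAL (x := x) hmem) (xL hgauss)

theorem evalL_coe (p : (↥A)[X]) :
    (((evalL hmem hgauss p : ↥(OL (K := K) O x)) : K⟮x⟯) : F)
      = aeval x (p.map (algebraMap ↥A K)) := by
  have h1 := Polynomial.hom_eval₂ p (inclAL (x := x) hmem)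
    ((algebraMap K⟮x⟯ F).comp (algebraMap ↥(OL (K := K) O x) K⟮x⟯)) (xL hgauss)
  have h2 : ((algebraMap K⟮x⟯ F).comp (algebraMap ↥(OL (K := K) O x) K⟮x⟯)).comp
      (inclAL (x := x) hmem) = (algebraMap K F).comp (algebraMap ↥A K) := rfl
  rw [Polynomial.aeval_def, Polynomial.eval₂_map, ← h2]
  exact h1

theorem residue_evalL (p : (↥A)[X]) :
    residue ↥(OL (K := K) O x) (evalL hmem hgauss p)
      = (p.map (residue ↥A)).eval₂ (resAL (x := x) hmem) (xBar hgauss) := by
  have h1 := Polynomial.hom_eval₂ p (inclAL (x := x) hmem)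
    (residue ↥(OL (K := K) O x)) (xL hgauss)
  rw [Polynomial.eval₂_map]
  have h2 : (resAL (x := x) hmem).comp (residue ↥A)
      = (residue ↥(OL (K := K) O x)).comp (inclAL (x := x) hmem) :=
    ResidueField.map_comp_residue _
  rw [h2]
  exact h1

/-- A polynomial over `A` with a unit coefficient gives a primitive polynomial over `K`. -/
theorem isPrim_map (p : (↥A)[X]) (hp : ∃ i, IsUnit (p.coeff i)) :
    IsPrim A (p.map (algebraMap ↥A K)) := by
  refine ⟨fun i => ?_, ?_⟩
  · rw [Polynomial.coeff_map]; exact (p.coeff i).2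
  · obtain ⟨i, hi⟩ := hp
    obtain ⟨s, hs⟩ := isUnit_iff_exists_inv.1 hi
    have h1 : ((p.coeff i : ↥A) : K) * (s : K) = 1 := congrArg Subtype.val hs
    have h0 : ((p.coeff i : ↥A) : K) ≠ 0 := by
      intro h; rw [h, zero_mul] at h1; exact zero_ne_one h1
    refine ⟨i, ?_, ?_⟩
    · rw [Polynomial.coeff_map]; exact h0
    · rw [Polynomial.coeff_map]
      have h2 : (algebraMap ↥A K (p.coeff i))⁻¹ = (s : K) := inv_eq_of_mul_eq_one_right h1
      rw [h2]; exact s.2

/-- Every polynomial over `K` with coefficients in `A` comes from a polynomial over `A`. -/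
theorem exists_lift_poly (q : K[X]) (hq : ∀ i, q.coeff i ∈ A) :
    ∃ p : (↥A)[X], p.map (algebraMap ↥A K) = q := by
  rw [← Polynomial.mem_lifts, Polynomial.lifts_iff_coeff_lifts]
  intro n
  exact ⟨⟨q.coeff n, hq n⟩, rfl⟩

theorem exists_lift_isPrim (q : K[X]) (hq : IsPrim A q) :
    ∃ p : (↥A)[X], p.map (algebraMap ↥A K) = q ∧ ∃ i, IsUnit (p.coeff i) := by
  obtain ⟨p, hp⟩ := exists_lift_poly q hq.1
  refine ⟨p, hp, ?_⟩
  obtain ⟨i, hi0, hiu⟩ := hq.2
  refine ⟨i, isUnit_iff_exists_inv.2 ⟨⟨(q.coeff i)⁻¹, hiu⟩, ?_⟩⟩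
  apply Subtype.ext
  have h1 : ((p.coeff i : ↥A) : K) = q.coeff i := by
    rw [← hp, Polynomial.coeff_map]; rfl
  change ((p.coeff i : ↥A) : K) * (q.coeff i)⁻¹ = 1
  rw [h1, mul_inv_cancel₀ hi0]

include hmem in
/-- A polynomial over `A` with a unit coefficient takes a unit value at `x`. -/
theorem isUnit_evalL (hA : A ≠ ⊤) (p : (↥A)[X]) (hp : ∃ i, IsUnit (p.coeff i)) :
    IsUnit (evalL hmem hgauss p) := by
  have hprim := isPrim_map p hp
  have h1 := evalL_coe hmem hgauss p
  have h0 : aeval x (p.map (algebraMap ↥A K)) ≠ 0 :=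
    aeval_ne_zero hmem hgauss hA hprim.ne_zero
  have hne : ((evalL hmem hgauss p : ↥(OL (K := K) O x)) : K⟮x⟯) ≠ 0 := by
    intro h
    rw [h] at h1
    exact h0 h1.symm
  refine isUnit_iff_exists_inv.2 ⟨⟨((evalL hmem hgauss p : ↥(OL (K := K) O x)) : K⟮x⟯)⁻¹, ?_⟩, ?_⟩
  · rw [mem_OL, IntermediateField.coe_inv, h1]
    exact hprim.inv_aeval_mem hgauss
  · apply Subtype.ext
    exact mul_inv_cancel₀ hne

include hmem in
/-- **`x̄` is transcendental over `k`.** -/
theorem eval₂_xBar_ne_zero (hA : A ≠ ⊤) (P : (ResidueField ↥A)[X]) (hP : P ≠ 0) :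
    P.eval₂ (resAL (x := x) hmem) (xBar hgauss) ≠ 0 := by
  obtain ⟨p, rfl⟩ := Polynomial.map_surjective (residue ↥A) residue_surjective P
  have hp : ∃ i, IsUnit (p.coeff i) := by
    by_contra hcon
    push Not at hcon
    apply hP
    ext i
    rw [Polynomial.coeff_map, Polynomial.coeff_zero, residue_eq_zero_iff, mem_maximalIdeal,
      mem_nonunits_iff]
    exact hcon i
  rw [← residue_evalL hmem hgauss p]
  intro h
  rw [residue_eq_zero_iff, mem_maximalIdeal, mem_nonunits_iff] at h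
  exact h (isUnit_evalL hmem hgauss hA p hp)

include hmem in
/-- **`κ_L = k(x̄)`**: every element of `κ_L` is a quotient of polynomials in `x̄` over `k`. -/
theorem exists_eval₂_xBar (hA : A ≠ ⊤) (y : ResidueField ↥(OL (K := K) O x)) :
    ∃ P Q : (ResidueField ↥A)[X], Q.eval₂ (resAL (x := x) hmem) (xBar hgauss) ≠ 0 ∧
      y * Q.eval₂ (resAL (x := x) hmem) (xBar hgauss)
        = P.eval₂ (resAL (x := x) hmem) (xBar hgauss) := by
  obtain ⟨r, rfl⟩ := residue_surjective y
  by_cases hr : (r : K⟮x⟯) = 0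
  · refine ⟨0, 1, by simp, ?_⟩
    have : r = 0 := Subtype.ext hr
    simp [this]
  · obtain ⟨c, p, q, hc, hp, hq, hrepr⟩ := exists_repr hmem hgauss hA (r : K⟮x⟯) hr
    have hcA : c ∈ A := by
      rw [← mul_div_mem_iff hmem hgauss hA hp hq c, ← hrepr]
      exact r.2
    obtain ⟨p', hp', hpu⟩ := exists_lift_isPrim p hp
    obtain ⟨q', hq', hqu⟩ := exists_lift_isPrim q hq
    have hq0 : aeval x q ≠ 0 := aeval_ne_zero hmem hgauss hA hq.ne_zero
    -- the identity `r * q(x) = c * p(x)` in `O ∩ K(x)`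
    have hid : r * evalL hmem hgauss q' = inclAL (x := x) hmem ⟨c, hcA⟩ * evalL hmem hgauss p' := by
      apply Subtype.ext
      apply Subtype.ext
      change ((r : K⟮x⟯) : F) * (((evalL hmem hgauss q' : ↥(OL (K := K) O x)) : K⟮x⟯) : F)
        = algebraMap K F c * (((evalL hmem hgauss p' : ↥(OL (K := K) O x)) : K⟮x⟯) : F)
      rw [evalL_coe, evalL_coe, hp', hq', hrepr]
      field_simp
    refine ⟨Polynomial.C (residue ↥A ⟨c, hcA⟩) * p'.map (residue ↥A), q'.map (residue ↥A), ?_, ?_⟩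
    · rw [← residue_evalL hmem hgauss q']
      intro h
      rw [residue_eq_zero_iff, mem_maximalIdeal, mem_nonunits_iff] at h
      exact h (isUnit_evalL hmem hgauss hA q' hqu)
    · rw [← residue_evalL hmem hgauss q', Polynomial.eval₂_mul, Polynomial.eval₂_C,
        ← residue_evalL hmem hgauss p', resAL_residue, ← map_mul, ← map_mul, hid]

end

end Fermat.Agent.S18.H80
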