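/-
S18 / core 2, chart leaves K2-CH-A (helper80): the chart `C = chart A₀ x` (integral closure of
`A₀[x]` in `F₀`) against the Gauss valuation ring `O₀` of a `DSetup`.

* `chart_le`           : `C ⊆ O₀`;
* `chart_jbar`         : `P(x) ∈ ϖ C` implies `ϖ ∣ P` (the reduction of `x` is transcendental);
* `chart_mem_nonunits_of_sat` : `C ∩ m_{O₀} = ϖ C`, given saturation;
* `exists_unit_mul_mem_chart_of_sat` : every element of `O₀` becomes an element of `C` after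
  multiplication by a Gauss unit `g(x)`;
* `chart_oneUnit_of_sat` : a one-unit of `O₀` is a quotient of two congruent elements of `C`.

"Saturation" is the statement `∀ h ∈ O₀, ϖ • h ∈ C → h ∈ C` (leaf `chart_sat`), taken here as an
explicit hypothesis `hsat`.
-/
import Fermat.Agent.S18.H19.Core2Defs

set_option autoImplicit false
set_option linter.unusedSectionVars false

open Polynomial

noncomputable section

namespace Fermat.Agent.S18.H80

open Fermat.Agent.S18.H19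

section Basic

variable {A₀ : Type*} [CommRing A₀] [IsDomain A₀] {F₀ : Type*} [Field F₀] [Algebra A₀ F₀]
  {O₀ : ValuationSubring F₀} {x : F₀}

/-- Constants lie in `O₀`. -/
theorem ds_algebraMap_mem (hS : DSetup A₀ O₀ x) (a : A₀) : algebraMap A₀ F₀ a ∈ O₀ := by
  have h := (hS.mem_iff a 1 one_ne_zero).2 (one_dvd a)
  rwa [map_one, div_one] at h

/-- `x ∈ O₀`. -/
theorem ds_x_mem (hS : DSetup A₀ O₀ x) : x ∈ O₀ := by
  have h := (hS.gauss X ⟨1, by rw [coeff_X_one]; exact isUnit_one⟩).1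
  rwa [aeval_X] at h

/-- `A₀[x] ⊆ O₀`. -/
theorem ds_aeval_mem (hS : DSetup A₀ O₀ x) (P : A₀[X]) : aeval x P ∈ O₀ := by
  rw [aeval_eq_sum_range]
  refine sum_mem fun i _ => ?_
  rw [Algebra.smul_def]
  exact O₀.mul_mem _ _ (ds_algebraMap_mem hS _) (pow_mem (ds_x_mem hS) i)

theorem ds_adjoin_le (hS : DSetup A₀ O₀ x) {y : F₀}
    (hy : y ∈ Algebra.adjoin A₀ ({x} : Set F₀)) : y ∈ O₀ := by
  rw [Algebra.adjoin_singleton_eq_range_aeval] at hy
  obtain ⟨P, rfl⟩ := hy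
  exact ds_aeval_mem hS P

/-- The chart lies in `O₀` (a valuation ring is integrally closed). -/
theorem ds_chart_le (hS : DSetup A₀ O₀ x) : ∀ c ∈ chart A₀ x, c ∈ O₀ := by
  intro c hc
  rw [mem_chart_iff] at hc
  obtain ⟨p, hp, hpc⟩ := hc
  -- the inclusion `A₀[x] → O₀`
  let φ : ↥(Algebra.adjoin A₀ ({x} : Set F₀)) →+* ↥O₀ :=
    RingHom.codRestrict (algebraMap ↥(Algebra.adjoin A₀ ({x} : Set F₀)) F₀) O₀
      (fun y => ds_adjoin_le hS y.2)
  have hint : IsIntegral ↥O₀ c := by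
    refine ⟨p.map φ, hp.map φ, ?_⟩
    rw [eval₂_map]
    exact hpc
  obtain ⟨y, rfl⟩ := IsIntegrallyClosed.isIntegral_iff.1 hint
  exact y.2

/-- Polynomials in `x` lie in the chart. -/
theorem ds_aeval_mem_chart (x : F₀) (P : A₀[X]) : aeval x P ∈ chart A₀ x :=
  Algebra.adjoin_le (Set.singleton_subset_iff.2 (self_mem_chart A₀ x))
    (aeval_mem_adjoin_singleton A₀ x)

/-- Constants are not killed in `F₀`. -/
theorem ds_algebraMap_ne_zero (hS : DSetup A₀ O₀ x) {b : A₀} (hb : b ≠ 0) :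
    algebraMap A₀ F₀ b ≠ 0 := by
  intro h0
  have h1 : algebraMap A₀ F₀ 1 / algebraMap A₀ F₀ b ∈ O₀ := by
    rw [h0, div_zero]; exact O₀.zero_mem
  have h2 := isUnit_of_dvd_one ((hS.mem_iff 1 b hb).1 h1)
  exact (h2.map (algebraMap A₀ F₀)).ne_zero h0

/-- `A₀[x] ⊆ K₀(x)`. -/
theorem ds_adjoin_le_ratSub {y : F₀} (hy : y ∈ Algebra.adjoin A₀ ({x} : Set F₀)) :
    y ∈ ratSub A₀ x := by
  have h1 : y ∈ (Algebra.adjoin A₀ ({x} : Set F₀)).toSubring := hy
  rw [Algebra.adjoin_eq_ring_closure] at h1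
  exact Subfield.subring_closure_le _ h1

theorem ds_aeval_mem_ratSub (x : F₀) (P : A₀[X]) : aeval x P ∈ ratSub A₀ x :=
  ds_adjoin_le_ratSub (aeval_mem_adjoin_singleton A₀ x)

/-- Every element of `K₀(x)` is a quotient of two elements of `A₀[x]`. -/
theorem ds_ratSub_exists_div (y : ratSub A₀ x) :
    ∃ p q : ↥(Algebra.adjoin A₀ ({x} : Set F₀)), (y : F₀) = (p : F₀) / (q : F₀) := by
  obtain ⟨y, hy⟩ := y
  rw [ratSub, Subfield.mem_closure_iff] at hy
  obtain ⟨p, hp, q, hq, rfl⟩ := hy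
  rw [← Algebra.adjoin_eq_ring_closure] at hp hq
  exact ⟨⟨p, hp⟩, ⟨q, hq⟩, rfl⟩

/-- Every element of `F₀` becomes integral over `A₀[x]` after multiplication by a nonzero
polynomial in `x`. -/
theorem ds_exists_aeval_mul_mem_chart (hS : DSetup A₀ O₀ x) (y : F₀) :
    ∃ d : A₀[X], aeval x d ≠ 0 ∧ aeval x d * y ∈ chart A₀ x := by
  have := hS.finite
  have hRL : ∀ r : ↥(Algebra.adjoin A₀ ({x} : Set F₀)), algebraMap _ F₀ r ∈ ratSub A₀ x :=
    fun r => ds_adjoin_le_ratSub r.2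
  let _ : Algebra ↥(Algebra.adjoin A₀ ({x} : Set F₀)) ↥(ratSub A₀ x) :=
    (RingHom.codRestrict (algebraMap ↥(Algebra.adjoin A₀ ({x} : Set F₀)) F₀)
      (ratSub A₀ x) hRL).toAlgebra
  have : IsScalarTower ↥(Algebra.adjoin A₀ ({x} : Set F₀)) ↥(ratSub A₀ x) F₀ :=
    IsScalarTower.of_algebraMap_eq (fun _ => rfl)
  have : FaithfulSMul ↥(Algebra.adjoin A₀ ({x} : Set F₀)) ↥(ratSub A₀ x) :=
    (faithfulSMul_iff_algebraMap_injective _ _).2 (fun a b hab =>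
      Subtype.ext (congrArg (fun z : ↥(ratSub A₀ x) => (z : F₀)) hab))
  have : IsFractionRing ↥(Algebra.adjoin A₀ ({x} : Set F₀)) ↥(ratSub A₀ x) :=
    IsFractionRing.of_field _ _ (fun z => by
      obtain ⟨p, q, h⟩ := ds_ratSub_exists_div z
      exact ⟨p, q, Subtype.ext h⟩)
  have halg : IsIntegral ↥(ratSub A₀ x) y := Algebra.IsIntegral.isIntegral y
  obtain ⟨m, hm⟩ := IsIntegral.exists_multiple_integral_of_isLocalization
    (nonZeroDivisors ↥(Algebra.adjoin A₀ ({x} : Set F₀))) y halg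
  have hm0 : ((m : ↥(Algebra.adjoin A₀ ({x} : Set F₀))) : F₀) ≠ 0 := fun h =>
    nonZeroDivisors.coe_ne_zero m (Subtype.ext h)
  have hmem : ((m : ↥(Algebra.adjoin A₀ ({x} : Set F₀))) : F₀) ∈ (aeval (R := A₀) x).range := by
    rw [← Algebra.adjoin_singleton_eq_range_aeval]
    exact (m : ↥(Algebra.adjoin A₀ ({x} : Set F₀))).2
  obtain ⟨d, hd⟩ := hmem
  refine ⟨d, ?_, ?_⟩
  · rw [show aeval x d = ((m : ↥(Algebra.adjoin A₀ ({x} : Set F₀))) : F₀) from hd]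
    exact hm0
  · rw [mem_chart_iff, show aeval x d = ((m : ↥(Algebra.adjoin A₀ ({x} : Set F₀))) : F₀) from hd]
    exact hm

/-- A polynomial in `x` with a unit coefficient does not vanish. -/
theorem ds_aeval_ne_zero_of_unit (hS : DSetup A₀ O₀ x) (g : A₀[X])
    (hg : ∃ i, IsUnit (g.coeff i)) : aeval x g ≠ 0 := by
  intro h0
  obtain ⟨i, hi⟩ := hg
  rw [(transcendental_iff.1 hS.transc) g h0, coeff_zero] at hi
  exact not_isUnit_zero hi

end Basic

section DVR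

variable {A₀ : Type*} [CommRing A₀] [IsDomain A₀] [IsDiscreteValuationRing A₀]
  {ϖ : A₀} {F₀ : Type*} [Field F₀] [Algebra A₀ F₀]
  {O₀ : ValuationSubring F₀} {x : F₀}

/-- A coefficient not divisible by the uniformiser is a unit. -/
theorem dvr_isUnit_of_not_dvd (hϖ : Irreducible ϖ) {a : A₀} (h : ¬ ϖ ∣ a) : IsUnit a := by
  rw [← IsLocalRing.notMem_maximalIdeal, hϖ.maximalIdeal_eq, Ideal.mem_span_singleton]
  exact h

/-- In a discrete valuation ring, `¬ b ∣ a` implies `ϖ a ∣ b`. -/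
theorem dvr_mul_dvd_of_not_dvd (hϖ : Irreducible ϖ) {a b : A₀} (ha : a ≠ 0) (hb : b ≠ 0)
    (h : ¬ b ∣ a) : ϖ * a ∣ b := by
  obtain ⟨m, hm⟩ := IsDiscreteValuationRing.associated_pow_irreducible ha hϖ
  obtain ⟨k, hk⟩ := IsDiscreteValuationRing.associated_pow_irreducible hb hϖ
  have hlt : m < k := by
    by_contra hle
    push Not at hle
    exact h (hk.dvd.trans ((pow_dvd_pow ϖ hle).trans hm.symm.dvd))
  have h1 : ϖ * a ∣ ϖ ^ (m + 1) := by
    rw [pow_succ']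
    exact mul_dvd_mul_left ϖ hm.dvd
  exact h1.trans ((pow_dvd_pow ϖ hlt).trans hk.symm.dvd)

/-- `ϖ` lies in the maximal ideal of `O₀`. -/
theorem ds_unif_mem_nonunits (hϖ : Irreducible ϖ) (hS : DSetup A₀ O₀ x) :
    algebraMap A₀ F₀ ϖ ∈ O₀.nonunits := by
  rw [ValuationSubring.mem_nonunits_iff_or]
  right
  intro h
  have h1 : algebraMap A₀ F₀ 1 / algebraMap A₀ F₀ ϖ ∈ O₀ := by
    rwa [map_one, one_div]
  exact hϖ.not_isUnit (isUnit_of_dvd_one ((hS.mem_iff 1 ϖ hϖ.ne_zero).1 h1))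

/-- `m_{O₀}` is an ideal of `O₀`. -/
theorem ds_mul_mem_nonunits {a b : F₀} (ha : a ∈ O₀.nonunits) (hb : b ∈ O₀) :
    a * b ∈ O₀.nonunits := by
  rw [ValuationSubring.mem_nonunits_iff, map_mul]
  have h1 := (ValuationSubring.mem_nonunits_iff O₀).1 ha
  have h2 := (O₀.valuation_le_one_iff _).2 hb
  calc O₀.valuation a * O₀.valuation b ≤ O₀.valuation a * 1 := by gcongr
    _ < 1 := by rwa [mul_one]

/-- Gauss lemma: a polynomial in `x` lying in the maximal ideal of `O₀` is divisible by `ϖ`. -/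
theorem ds_coeff_dvd_of_mem_nonunits (hϖ : Irreducible ϖ) (hS : DSetup A₀ O₀ x) (P : A₀[X])
    (h : aeval x P ∈ O₀.nonunits) : ∀ i, ϖ ∣ P.coeff i := by
  by_contra hcon
  push Not at hcon
  obtain ⟨i, hi⟩ := hcon
  have h1 := (hS.gauss P ⟨i, dvr_isUnit_of_not_dvd hϖ hi⟩).2
  rw [ValuationSubring.mem_nonunits_iff_or] at h
  rcases h with h | h
  · have hP : P = 0 := (transcendental_iff.1 hS.transc) P h
    rw [hP, coeff_zero] at hi
    exact hi (dvd_zero ϖ)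
  · exact h h1

/-- **`chart_jbar`**: the reduction of `x` is transcendental over the residue field. -/
theorem ds_chart_jbar (hϖ : Irreducible ϖ) (hS : DSetup A₀ O₀ x) :
    ∀ P : A₀[X], (∃ c ∈ chart A₀ x, aeval x P = ϖ • c) → ∀ i, ϖ ∣ P.coeff i := by
  rintro P ⟨c, hc, hPc⟩
  refine ds_coeff_dvd_of_mem_nonunits hϖ hS P ?_
  rw [hPc, Algebra.smul_def]
  exact ds_mul_mem_nonunits (ds_unif_mem_nonunits hϖ hS) (ds_chart_le hS c hc)

/-- **`chart_mem_nonunits`** from saturation: `C ∩ m_{O₀} = ϖ C`. -/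
theorem chart_mem_nonunits_of_sat (hϖ : Irreducible ϖ) (hS : DSetup A₀ O₀ x)
    (hsat : ∀ h ∈ O₀, ϖ • h ∈ chart A₀ x → h ∈ chart A₀ x) :
    ∀ c ∈ chart A₀ x, c ∈ O₀.nonunits → ∃ c' ∈ chart A₀ x, c = ϖ • c' := by
  intro c hc hcm
  by_cases hc0 : c = 0
  · exact ⟨0, zero_mem _, by rw [hc0, smul_zero]⟩
  obtain ⟨a, b, ha, hb, h1, h2⟩ := hS.scale c hc0
  have hϖ0 : algebraMap A₀ F₀ ϖ ≠ 0 := ds_algebraMap_ne_zero hS hϖ.ne_zero
  have ha0 : algebraMap A₀ F₀ a ≠ 0 := ds_algebraMap_ne_zero hS ha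
  have hb0 : algebraMap A₀ F₀ b ≠ 0 := ds_algebraMap_ne_zero hS hb
  have hnd : ¬ b ∣ a := by
    intro hdvd
    have h3 := (hS.mem_iff a b hb).2 hdvd
    have h4 : c * (algebraMap A₀ F₀ a / algebraMap A₀ F₀ b) ∈ O₀.nonunits :=
      ds_mul_mem_nonunits hcm h3
    rw [mul_comm, ValuationSubring.mem_nonunits_iff_or] at h4
    rcases h4 with h4 | h4
    · exact mul_ne_zero (div_ne_zero ha0 hb0) hc0 h4
    · exact h4 h2
  obtain ⟨s, hs⟩ := dvr_mul_dvd_of_not_dvd hϖ ha hb hnd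
  have hs0 : algebraMap A₀ F₀ s ≠ 0 := by
    refine ds_algebraMap_ne_zero hS ?_
    rintro rfl
    exact hb (by rw [hs, mul_zero])
  have hO : (algebraMap A₀ F₀ ϖ)⁻¹ * c ∈ O₀ := by
    have e : (algebraMap A₀ F₀ ϖ)⁻¹ * c
        = algebraMap A₀ F₀ s * (algebraMap A₀ F₀ a / algebraMap A₀ F₀ b * c) := by
      rw [hs, map_mul, map_mul]
      field_simp
    rw [e]
    exact O₀.mul_mem _ _ (ds_algebraMap_mem hS s) h1
  refine ⟨(algebraMap A₀ F₀ ϖ)⁻¹ * c, hsat _ hO ?_, ?_⟩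
  · rw [Algebra.smul_def, mul_inv_cancel_left₀ hϖ0]; exact hc
  · rw [Algebra.smul_def, mul_inv_cancel_left₀ hϖ0]

/-- Saturation for powers of `ϖ`. -/
theorem ds_sat_pow (hS : DSetup A₀ O₀ x)
    (hsat : ∀ h ∈ O₀, ϖ • h ∈ chart A₀ x → h ∈ chart A₀ x) :
    ∀ (k : ℕ) (y : F₀), y ∈ O₀ → ϖ ^ k • y ∈ chart A₀ x → y ∈ chart A₀ x := by
  intro k
  induction k with
  | zero => intro y _ h; simpa using h
  | succ k ih =>
    intro y hy h
    refine ih y hy (hsat _ ?_ ?_)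
    · rw [Algebra.smul_def]; exact O₀.mul_mem _ _ (ds_algebraMap_mem hS _) hy
    · rwa [← mul_smul, ← pow_succ']

/-- Every element of `O₀` becomes an element of the chart after multiplication by a polynomial
in `x` with a unit coefficient (a unit of `O₀`). -/
theorem exists_unit_mul_mem_chart_of_sat (hϖ : Irreducible ϖ) (hS : DSetup A₀ O₀ x)
    (hsat : ∀ h ∈ O₀, ϖ • h ∈ chart A₀ x → h ∈ chart A₀ x) {y : F₀} (hy : y ∈ O₀) :
    ∃ g : A₀[X], (∃ i, IsUnit (g.coeff i)) ∧ aeval x g * y ∈ chart A₀ x := by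
  obtain ⟨d, hd0, hd⟩ := ds_exists_aeval_mul_mem_chart hS y
  have hd0' : d ≠ 0 := by rintro rfl; exact hd0 (map_zero _)
  have hC : ¬ IsUnit (C ϖ : A₀[X]) := fun h => hϖ.not_isUnit (Polynomial.isUnit_C.1 h)
  obtain ⟨g, hg, hnd⟩ := (FiniteMultiplicity.of_not_isUnit hC hd0').exists_eq_pow_mul_and_not_dvd
  have hgu : ∃ i, IsUnit (g.coeff i) := by
    rw [C_dvd_iff_dvd_coeff] at hnd
    push Not at hnd
    obtain ⟨i, hi⟩ := hnd
    exact ⟨i, dvr_isUnit_of_not_dvd hϖ hi⟩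
  refine ⟨g, hgu, ?_⟩
  have hyO : aeval x g * y ∈ O₀ := O₀.mul_mem _ _ (ds_aeval_mem hS g) hy
  have e : aeval x d * y = ϖ ^ (multiplicity (C ϖ) d) • (aeval x g * y) := by
    conv_lhs => rw [hg]
    rw [map_mul, map_pow, aeval_C, Algebra.smul_def, map_pow, mul_assoc]
  rw [e] at hd
  exact ds_sat_pow hS hsat _ _ hyO hd

/-- **`chart_oneUnit`** from saturation: a one-unit of `O₀` is a quotient of two congruent
elements of the chart. -/
theorem chart_oneUnit_of_sat (hϖ : Irreducible ϖ) (hS : DSetup A₀ O₀ x)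
    (hsat : ∀ h ∈ O₀, ϖ • h ∈ chart A₀ x → h ∈ chart A₀ x) (u : F₀)
    (hu : u - 1 ∈ O₀.nonunits) :
    ∃ a ∈ chart A₀ x, ∃ b ∈ chart A₀ x, (¬ ∃ c ∈ chart A₀ x, b = ϖ • c) ∧
      (∃ c ∈ chart A₀ x, a - b = ϖ • c) ∧ u * b = a := by
  have hu1 : u - 1 ∈ O₀ := ValuationSubring.nonunits_subset hu
  have huO : u ∈ O₀ := by
    have h := O₀.add_mem _ _ hu1 O₀.one_mem
    rwa [sub_add_cancel] at h
  obtain ⟨g, hgu, hg⟩ := exists_unit_mul_mem_chart_of_sat hϖ hS hsat huO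
  refine ⟨aeval x g * u, hg, aeval x g, ds_aeval_mem_chart x g, ?_, ?_, mul_comm _ _⟩
  · rintro ⟨c, hc, hbc⟩
    obtain ⟨i, hi⟩ := hgu
    exact hϖ.not_isUnit (isUnit_of_dvd_unit (ds_chart_jbar hϖ hS g ⟨c, hc, hbc⟩ i) hi)
  · refine chart_mem_nonunits_of_sat hϖ hS hsat _ (sub_mem hg (ds_aeval_mem_chart x g)) ?_
    have e : aeval x g * u - aeval x g = (u - 1) * aeval x g := by ring
    rw [e]
    exact ds_mul_mem_nonunits hu (ds_aeval_mem hS g)

end DVR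

/-! ### The leaves which do not use saturation, in the literal form of the core-2 skeleton -/

section Verbatim

variable {A₀ : Type*} [CommRing A₀] [IsDomain A₀] [IsDiscreteValuationRing A₀] [CharZero A₀]
  (ϖ : A₀) (hϖ : Irreducible ϖ)
  {F₀ : Type*} [Field F₀] [Algebra A₀ F₀] [FaithfulSMul A₀ F₀]
  (O₀ : ValuationSubring F₀) (x : F₀)

/-- CH-A: the chart lies in `O₀`. -/
theorem chart_le (hS : DSetup A₀ O₀ x) : ∀ c ∈ chart A₀ x, c ∈ O₀ :=
  ds_chart_le hS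

include hϖ in
/-- CH-A: `x̄` is transcendental over the residue field. -/
theorem chart_jbar (hS : DSetup A₀ O₀ x) :
    ∀ P : A₀[X], (∃ c ∈ chart A₀ x, Polynomial.aeval x P = ϖ • c) → ∀ i, ϖ ∣ P.coeff i :=
  ds_chart_jbar hϖ hS

end Verbatim

end Fermat.Agent.S18.H80
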