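/-
S18 / core 2, chart leaves (helper80): coordinates with respect to an orthonormal basis, generic
form.  `L → F` a finite extension of fields, `O` a valuation subring of `F` which does not contain
`L`, `θ` an orthonormal tuple of length `[F : L]`.  Then `θ` is an `L`-basis of `F`,
`O = ⊕ (O ∩ L) θ_i`, traces of elements of `O` lie in `O`, and if the Gram determinant of `θ` is a
unit of `O` then `O` is self-dual for the trace form modulo the maximal ideal:
`Tr(c θ_j) ∈ m_O` for all `j` implies `c ∈ m_O`.  Mathlib only.
-/
import Mathlib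

set_option autoImplicit false

noncomputable section

namespace Fermat.Agent.S18.H80

/-- An orthonormal tuple `θ` of length `[F : L]` for a valuation subring `O` of `F` which does not
contain the image of `L`. -/
structure SubData (L : Type*) {F : Type*} [Field L] [Field F] [Algebra L F]
    (O : ValuationSubring F) {n : ℕ} (θ : Fin n → F) : Prop where
  nontriv : ∃ c : L, algebraMap L F c ∉ O
  finite : Module.Finite L F
  finrank_eq : Module.finrank L F = n
  orth : ∀ r : Fin n → L, (∑ i, algebraMap L F (r i) * θ i) ∈ O ↔ ∀ i, algebraMap L F (r i) ∈ O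

/-- The adjugate of a matrix with entries in a subring has entries in that subring. -/
theorem adjugate_mem_subring {R : Type*} [CommRing R] (S : Subring R) {m : Type*} [Fintype m]
    [DecidableEq m] (M : Matrix m m R) (h : ∀ i j, M i j ∈ S) (i j : m) :
    M.adjugate i j ∈ S := by
  have e : M = S.subtype.mapMatrix (Matrix.of fun i j => (⟨M i j, h i j⟩ : S)) := by
    ext i j; rfl
  rw [e, ← RingHom.map_adjugate]
  exact SetLike.coe_mem _

namespace SubData

variable {L : Type*} {F : Type*} [Field L] [Field F] [Algebra L F]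
  {O : ValuationSubring F} {n : ℕ} {θ : Fin n → F}

theorem theta_mem (D : SubData L O θ) (i : Fin n) : θ i ∈ O := by
  classical
  have h := (D.orth (Pi.single i (1 : L) : Fin n → L)).2 (fun j => by
    by_cases hj : j = i
    · subst hj; simp [O.one_mem]
    · simp [Pi.single_eq_of_ne hj, O.zero_mem])
  have h1 : (∑ j, algebraMap L F ((Pi.single i (1 : L) : Fin n → L) j) * θ j) = θ i := by
    rw [Finset.sum_eq_single i]
    · simp
    · intro j _ hj; simp [Pi.single_eq_of_ne hj]
    · intro hi; exact absurd (Finset.mem_univ i) hi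
  rwa [h1] at h

theorem linearIndependent (D : SubData L O θ) : LinearIndependent L θ := by
  rw [Fintype.linearIndependent_iff]
  intro g hg i
  by_contra hgi
  obtain ⟨a, ha⟩ := D.nontriv
  set c : L := a * (g i)⁻¹ with hc
  have h0 : (∑ j, algebraMap L F (c * g j) * θ j) = 0 := by
    have h1 : (∑ j, algebraMap L F (c * g j) * θ j) = algebraMap L F c * ∑ j, g j • θ j := by
      rw [Finset.mul_sum]
      refine Finset.sum_congr rfl fun j _ => ?_
      rw [Algebra.smul_def, map_mul, mul_assoc]
    rw [h1, hg, mul_zero]
  have h2 := (D.orth (fun j => c * g j)).1 (by rw [h0]; exact O.zero_mem) i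
  have h3 : c * g i = a := by
    rw [hc, mul_assoc, inv_mul_cancel₀ hgi, mul_one]
  rw [h3] at h2
  exact ha h2

theorem n_pos (D : SubData L O θ) : 0 < n := by
  have := D.finite
  rw [← D.finrank_eq]
  exact Module.finrank_pos

/-- `θ` as an `L`-basis of `F`. -/
def basisF (D : SubData L O θ) : Module.Basis (Fin n) L F :=
  haveI : Nonempty (Fin n) := ⟨⟨0, D.n_pos⟩⟩
  basisOfLinearIndependentOfCardEqFinrank D.linearIndependent
    (by rw [Fintype.card_fin, D.finrank_eq])

@[simp] theorem basisF_apply (D : SubData L O θ) (i : Fin n) : D.basisF i = θ i := by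
  have : Nonempty (Fin n) := ⟨⟨0, D.n_pos⟩⟩
  simp [basisF]

theorem coe_basisF (D : SubData L O θ) : ⇑D.basisF = θ := funext D.basisF_apply

theorem sum_repr (D : SubData L O θ) (f : F) :
    ∑ i, algebraMap L F (D.basisF.repr f i) * θ i = f := by
  conv_rhs => rw [← D.basisF.sum_repr f]
  refine Finset.sum_congr rfl fun i _ => ?_
  rw [Algebra.smul_def, D.basisF_apply]

/-- `O = ⊕ (O ∩ L) θ_i`. -/
theorem mem_iff_repr (D : SubData L O θ) (f : F) :
    f ∈ O ↔ ∀ i, algebraMap L F (D.basisF.repr f i) ∈ O := by
  rw [← D.orth, D.sum_repr]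

theorem repr_mem (D : SubData L O θ) {f : F} (hf : f ∈ O) (i : Fin n) :
    algebraMap L F (D.basisF.repr f i) ∈ O := (D.mem_iff_repr f).1 hf i

/-- The trace of an element of `O` lies in `O`. -/
theorem trace_mem (D : SubData L O θ) {f : F} (hf : f ∈ O) :
    algebraMap L F (Algebra.trace L F f) ∈ O := by
  classical
  rw [Algebra.trace_eq_matrix_trace D.basisF f, Matrix.trace, map_sum]
  refine sum_mem fun i _ => ?_
  rw [Matrix.diag_apply, Algebra.leftMulMatrix_eq_repr_mul, D.basisF_apply]
  exact D.repr_mem (O.mul_mem _ _ hf (D.theta_mem i)) i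

/-- Self-duality modulo the maximal ideal: if the Gram determinant of `θ` is a unit of `O` and
all `Tr(c θ_j)` lie in the maximal ideal of `O`, then so does `c`. -/
theorem mem_nonunits_of_trace [CharZero L] (D : SubData L O θ)
    (hgram : (algebraMap L F (Matrix.of fun i j => Algebra.trace L F (θ i * θ j)).det)⁻¹ ∈ O)
    {c : F} (ht : ∀ j, algebraMap L F (Algebra.trace L F (c * θ j)) ∈ O.nonunits) :
    c ∈ O.nonunits := by
  classical
  have := D.finite
  set Gm : Matrix (Fin n) (Fin n) L := Matrix.of fun i j => Algebra.trace L F (θ i * θ j)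
    with hGm
  have hdet : Gm.det ≠ 0 := by
    have : Algebra.IsSeparable L F := Algebra.IsAlgebraic.isSeparable_of_perfectField
    have h := Algebra.discr_not_zero_of_basis L D.basisF
    rw [Algebra.discr_def, D.coe_basisF] at h
    exact h
  set r : Fin n → L := fun i => D.basisF.repr c i with hr
  set t : Fin n → L := fun j => Algebra.trace L F (c * θ j) with ht_def
  -- the subring `O ∩ L`
  set S : Subring L := O.toSubring.comap (algebraMap L F) with hS
  have hSmem : ∀ a : L, a ∈ S ↔ algebraMap L F a ∈ O := fun a => Iff.rfl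
  have hGS : ∀ i j, Gm i j ∈ S := fun i j =>
    (hSmem _).2 (D.trace_mem (O.mul_mem _ _ (D.theta_mem i) (D.theta_mem j)))
  have hadj : ∀ i j, algebraMap L F (Gm.adjugate i j) ∈ O := fun i j =>
    (hSmem _).1 (adjugate_mem_subring S Gm hGS i j)
  -- `t = r ᵥ* Gm`
  have hc : c = ∑ i, r i • θ i := by
    have h := (D.basisF.sum_repr c).symm
    simpa [D.basisF_apply] using h
  have htr : Matrix.vecMul r Gm = t := by
    funext j
    change ∑ i, r i * Gm i j = Algebra.trace L F (c * θ j)
    conv_rhs => rw [hc, Finset.sum_mul]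
    rw [map_sum]
    refine Finset.sum_congr rfl fun i _ => ?_
    rw [smul_mul_assoc, map_smul, smul_eq_mul]
    rfl
  have hkey : Matrix.vecMul t Gm.adjugate = Gm.det • r := by
    rw [← htr, Matrix.vecMul_vecMul, Matrix.mul_adjugate, Matrix.vecMul_smul, Matrix.vecMul_one]
  have hri : ∀ i, algebraMap L F (r i) ∈ O.nonunits := by
    intro i
    have h1 : Gm.det * r i = ∑ j, t j * Gm.adjugate j i := by
      have h := congrFun hkey i
      rw [Pi.smul_apply, smul_eq_mul] at h
      rw [← h]
      rfl
    have h2 : algebraMap L F (r i)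
        = (algebraMap L F Gm.det)⁻¹ *
          ∑ j, algebraMap L F (t j) * algebraMap L F (Gm.adjugate j i) := by
      have hd : algebraMap L F Gm.det ≠ 0 := (_root_.map_ne_zero _).2 hdet
      rw [eq_inv_mul_iff_mul_eq₀ hd, ← map_mul, h1, map_sum]
      simp_rw [map_mul]
    rw [h2, ValuationSubring.mem_nonunits_iff, map_mul]
    have h3 : O.valuation (∑ j, algebraMap L F (t j) * algebraMap L F (Gm.adjugate j i)) < 1 := by
      refine Valuation.map_sum_lt _ one_ne_zero fun j _ => ?_
      rw [map_mul]
      have h4 := (ValuationSubring.mem_nonunits_iff O).1 (ht j)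
      have h5 := (O.valuation_le_one_iff _).2 (hadj j i)
      calc O.valuation (algebraMap L F (t j)) * O.valuation (algebraMap L F (Gm.adjugate j i))
          ≤ O.valuation (algebraMap L F (t j)) * 1 := by gcongr
        _ < 1 := by rwa [mul_one]
    have h6 := (O.valuation_le_one_iff _).2 hgram
    calc O.valuation (algebraMap L F Gm.det)⁻¹ *
          O.valuation (∑ j, algebraMap L F (t j) * algebraMap L F (Gm.adjugate j i))
        ≤ 1 * O.valuation (∑ j, algebraMap L F (t j) * algebraMap L F (Gm.adjugate j i)) := by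
          gcongr
      _ < 1 := by rwa [one_mul]
  rw [← D.sum_repr c, ValuationSubring.mem_nonunits_iff]
  refine Valuation.map_sum_lt _ one_ne_zero fun i _ => ?_
  rw [map_mul]
  have h1 := (ValuationSubring.mem_nonunits_iff O).1 (hri i)
  have h2 := (O.valuation_le_one_iff _).2 (D.theta_mem i)
  calc O.valuation (algebraMap L F (r i)) * O.valuation (θ i)
      ≤ O.valuation (algebraMap L F (r i)) * 1 := by gcongr
    _ < 1 := by rwa [mul_one]

end SubData

end Fermat.Agent.S18.H80
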