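/-
S18 / core 2, chart leaf K2-CH-B (helper80): separability of the special fibre of the chart,
from the unit Gram determinant of the orthonormal basis of a `DSetup`.

`chart_sep_of_sat`: if `c ∈ C` and `Tr_{F₀/K₀(x)}(c c') ∈ ϖ A₀[x]` for every `c' ∈ C`, then
`c ∈ ϖ C`; saturation (`chart_sat`) is an explicit hypothesis `hsat`.
-/
import Fermat.Agent.S18.H80.SubCoord
import Fermat.Agent.S18.H80.ChartGauss

set_option autoImplicit false

open Polynomial

noncomputable section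

namespace Fermat.Agent.S18.H80

open Fermat.Agent.S18.H19

section Sep

variable {A₀ : Type*} [CommRing A₀] [IsDomain A₀] [IsDiscreteValuationRing A₀]
  {ϖ : A₀} {F₀ : Type*} [Field F₀] [Algebra A₀ F₀]
  {O₀ : ValuationSubring F₀} {x : F₀}

/-- The orthonormal basis of a `DSetup` as a `SubData`, with its unit Gram determinant. -/
theorem ds_subData (hϖ : Irreducible ϖ) (hS : DSetup A₀ O₀ x) :
    ∃ θ : Fin (Module.finrank (ratSub A₀ x) F₀) → F₀, SubData (ratSub A₀ x) O₀ θ ∧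
      (algebraMap (ratSub A₀ x) F₀
        (Matrix.of fun i j => Algebra.trace (ratSub A₀ x) F₀ (θ i * θ j)).det)⁻¹ ∈ O₀ := by
  obtain ⟨θ, horth, hgram⟩ := hS.basis
  refine ⟨θ, ⟨?_, hS.finite, rfl, horth⟩, hgram⟩
  refine ⟨⟨(algebraMap A₀ F₀ ϖ)⁻¹, inv_mem (Subfield.subset_closure (Or.inl ⟨ϖ, rfl⟩))⟩, ?_⟩
  have h := ds_unif_mem_nonunits hϖ hS
  rw [ValuationSubring.mem_nonunits_iff_or] at h
  rcases h with h | h
  · exact absurd h (ds_algebraMap_ne_zero hS hϖ.ne_zero)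
  · exact h

/-- **`chart_sep`** from saturation. -/
theorem chart_sep_of_sat [CharZero A₀] [FaithfulSMul A₀ F₀] (hϖ : Irreducible ϖ)
    (hS : DSetup A₀ O₀ x)
    (hsat : ∀ h ∈ O₀, ϖ • h ∈ chart A₀ x → h ∈ chart A₀ x) :
    ∀ c ∈ chart A₀ x,
      (∀ c' ∈ chart A₀ x, ∃ q : A₀[X],
        ((Algebra.trace (ratSub A₀ x) F₀ (c * c') : ratSub A₀ x) : F₀) =
          Polynomial.aeval x (Polynomial.C ϖ * q)) →
      ∃ c'' ∈ chart A₀ x, c = ϖ • c'' := by
  intro c hc htr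
  obtain ⟨θ, D, hgram⟩ := ds_subData hϖ hS
  have : CharZero F₀ :=
    charZero_of_injective_algebraMap (FaithfulSMul.algebraMap_injective A₀ F₀)
  refine chart_mem_nonunits_of_sat hϖ hS hsat c hc (D.mem_nonunits_of_trace hgram fun j => ?_)
  obtain ⟨g, hgu, hg⟩ := exists_unit_mul_mem_chart_of_sat hϖ hS hsat (D.theta_mem j)
  obtain ⟨q, hq⟩ := htr _ hg
  have hg0 : aeval x g ≠ 0 := ds_aeval_ne_zero_of_unit hS g hgu
  have e1 : c * (aeval x g * θ j)
      = (⟨aeval x g, ds_aeval_mem_ratSub x g⟩ : ratSub A₀ x) • (c * θ j) := by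
    rw [Algebra.smul_def]
    change _ = aeval x g * (c * θ j)
    ring
  rw [e1, map_smul, smul_eq_mul] at hq
  have e2 : algebraMap (ratSub A₀ x) F₀ (Algebra.trace (ratSub A₀ x) F₀ (c * θ j))
      = (algebraMap A₀ F₀ ϖ * aeval x q) * (aeval x g)⁻¹ := by
    rw [eq_mul_inv_iff_mul_eq₀ hg0, ← aeval_C (R := A₀) x ϖ, ← map_mul, ← hq, mul_comm]
    rfl
  rw [e2]
  exact ds_mul_mem_nonunits
    (ds_mul_mem_nonunits (ds_unif_mem_nonunits hϖ hS) (ds_aeval_mem hS q)) (hS.gauss g hgu).2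

end Sep

end Fermat.Agent.S18.H80
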