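/-
S18 / core 2, chart leaf K2-CH-B (helper80): `chart_sep` in the literal form of the core-2
skeleton (`Fermat/Agent/S18/H19/Core2.lean`, binder order `ϖ hϖ O₀ x hS`), from
`chart_sep_of_sat` (this directory) and the landed saturation leaf `H6.chart_sat`.
-/
import Fermat.Agent.S18.H6.ChartA
import Fermat.Agent.S18.H80.ChartSep

set_option autoImplicit false

open Polynomial

noncomputable section

namespace Fermat.Agent.S18.H80

open Fermat.Agent.S18.H19

variable {A₀ : Type*} [CommRing A₀] [IsDomain A₀] [IsDiscreteValuationRing A₀] [CharZero A₀]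
  (ϖ : A₀) (hϖ : Irreducible ϖ)
  {F₀ : Type*} [Field F₀] [Algebra A₀ F₀] [FaithfulSMul A₀ F₀]
  (O₀ : ValuationSubring F₀) (x : F₀)

include hϖ in
/-- CH-B (separability of the special fibre, from the unit Gram determinant). -/
theorem chart_sep (hS : DSetup A₀ O₀ x) :
    ∀ c ∈ chart A₀ x,
      (∀ c' ∈ chart A₀ x, ∃ q : A₀[X],
        ((Algebra.trace (ratSub A₀ x) F₀ (c * c') : ratSub A₀ x) : F₀) =
          Polynomial.aeval x (Polynomial.C ϖ * q)) →
      ∃ c'' ∈ chart A₀ x, c = ϖ • c'' :=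
  chart_sep_of_sat hϖ hS (Fermat.Agent.S18.H6.chart_sat ϖ hϖ O₀ x hS)

end Fermat.Agent.S18.H80
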