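/-
S18 / Program J, piece D6 (helper80): residue plumbing, part 6 = (R6).

An orthonormal family over `(K, A)` (the predicate `IsON` of the skeleton, stated here unfolded)
has linearly independent reductions over the residue field of `A`: elementary form and
residue-field form (with the explicit ring homomorphism `resAO : k → κ`).  Mathlib only.
-/
import Fermat.Agent.S18.H80.Resid

set_option autoImplicit false

open IntermediateField Polynomial IsLocalRing

noncomputable section

namespace Fermat.Agent.S18.H80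

variable {K : Type*} [Field K] {A : ValuationSubring K} {F : Type*} [Field F] [Algebra K F]
  {O : ValuationSubring F}

section
variable (hmem : ∀ a : K, algebraMap K F a ∈ O ↔ a ∈ A)
include hmem

theorem const_mem_nonunits_iff' (a : K) : algebraMap K F a ∈ O.nonunits ↔ a ∈ A.nonunits := by
  rw [ValuationSubring.mem_nonunits_iff_or, ValuationSubring.mem_nonunits_iff_or, ← map_inv₀,
    hmem, map_eq_zero]

variable (hscale : ∀ f : F, f ≠ 0 → ∃ c : K, c ≠ 0 ∧ algebraMap K F c * f ∈ O ∧
    (algebraMap K F c * f)⁻¹ ∈ O)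
include hscale

/-- A nonzero nonunit of `O` is a nonunit constant times a unit of `O`. -/
theorem exists_const_mul_mem {y : F} (hy : y ∈ O.nonunits) (hy0 : y ≠ 0) :
    ∃ c : K, c ≠ 0 ∧ c⁻¹ ∈ A.nonunits ∧ algebraMap K F c * y ∈ O := by
  obtain ⟨c, hc, h1, h2⟩ := hscale y hy0
  refine ⟨c, hc, ?_, h1⟩
  rw [← const_mem_nonunits_iff' hmem]
  rw [ValuationSubring.mem_nonunits_iff] at hy ⊢
  have hv : O.valuation (algebraMap K F c * y) = 1 := by
    refine le_antisymm ((O.valuation_le_one_iff _).2 h1) ?_
    have h3 := (O.valuation_le_one_iff _).2 h2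
    rw [map_inv₀] at h3
    have h4 : O.valuation (algebraMap K F c * y) ≠ 0 :=
      (_root_.map_ne_zero _).2 (mul_ne_zero ((_root_.map_ne_zero _).2 hc) hy0)
    exact (inv_le_one₀ (zero_lt_iff.2 h4)).1 h3
  have h6 : algebraMap K F c⁻¹ = y * (algebraMap K F c * y)⁻¹ := by
    have hcF : algebraMap K F c ≠ 0 := (_root_.map_ne_zero _).2 hc
    rw [map_inv₀]; field_simp
  rw [h6, map_mul, map_inv₀, hv, inv_one, mul_one]
  exact hy

/-- **(R6), elementary form.**  For an orthonormal family `f`, a combination `∑ c_i f_i` which is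
a nonunit of `O` has all its coefficients in the maximal ideal of `A`. -/
theorem coeff_mem_nonunits_of_sum_mem (hA : A ≠ ⊤) {ι : Type*} [Fintype ι] (f : ι → F)
    (hON : ∀ c : ι → K, (∑ i, c i • f i) ∈ O ↔ ∀ i, c i ∈ A)
    (c : ι → K) (h : (∑ i, c i • f i) ∈ O.nonunits) : ∀ i, c i ∈ A.nonunits := by
  intro i
  by_cases hy0 : (∑ i, c i • f i) = 0
  · -- then every multiple of `c` is integral, so `c = 0`
    have hci : c i = 0 := by
      by_contra hne
      obtain ⟨b, hb⟩ : ∃ b : K, b ∉ A := by
        by_contra hcon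
        push Not at hcon
        exact hA (eq_top_iff.2 fun a _ => hcon a)
      have h1 : (∑ j, (b / c i * c j) • f j) = 0 := by
        have : (∑ j, (b / c i * c j) • f j) = (b / c i) • ∑ j, c j • f j := by
          rw [Finset.smul_sum]
          exact Finset.sum_congr rfl fun j _ => by rw [mul_smul]
        rw [this, hy0, smul_zero]
      have h2 := (hON (fun j => b / c i * c j)).1 (by rw [h1]; exact O.zero_mem) i
      rw [div_mul_cancel₀ b hne] at h2
      exact hb h2
    rw [hci]
    simp
  · obtain ⟨d, hd, hdA, hdy⟩ := exists_const_mul_mem hmem hscale h hy0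
    have h1 : (algebraMap K F d * ∑ i, c i • f i) = ∑ i, (d * c i) • f i := by
      rw [Finset.mul_sum]
      refine Finset.sum_congr rfl fun j _ => ?_
      rw [mul_smul, Algebra.smul_def d]
    rw [h1] at hdy
    have h2 := (hON _).1 hdy i
    have h3 : c i = d⁻¹ * (d * c i) := by field_simp
    rw [h3, ValuationSubring.mem_nonunits_iff, map_mul]
    have h4 := (ValuationSubring.mem_nonunits_iff A).1 hdA
    have h5 := (A.valuation_le_one_iff _).2 h2
    calc A.valuation d⁻¹ * A.valuation (d * c i) ≤ A.valuation d⁻¹ * 1 := by gcongr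
      _ < 1 := by rwa [mul_one]

end

section
variable (hmem : ∀ a : K, algebraMap K F a ∈ O ↔ a ∈ A)

/-- The inclusion `A → O`. -/
def inclAO : ↥A →+* ↥O where
  toFun a := ⟨algebraMap K F (a : K), (hmem a).2 a.2⟩
  map_one' := Subtype.ext (map_one _)
  map_mul' _ _ := Subtype.ext (map_mul _ _ _)
  map_zero' := Subtype.ext (map_zero _)
  map_add' _ _ := Subtype.ext (map_add _ _ _)

theorem inclAO_coe (a : ↥A) : ((inclAO hmem a : ↥O) : F) = algebraMap K F (a : K) := rfl

instance instIsLocalHomInclAO : IsLocalHom (inclAO hmem) := by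
  constructor
  intro a ha
  obtain ⟨s, hs⟩ := isUnit_iff_exists_inv.1 ha
  have h1 : algebraMap K F (a : K) * (s : F) = 1 := congrArg Subtype.val hs
  have ha0 : (a : K) ≠ 0 := by
    intro h
    rw [h, map_zero, zero_mul] at h1
    exact zero_ne_one h1
  have h2 : algebraMap K F (a : K)⁻¹ = (s : F) := by
    rw [map_inv₀]
    exact inv_eq_of_mul_eq_one_right h1
  have h3 : (a : K)⁻¹ ∈ A := by
    rw [← hmem, h2]
    exact s.2
  refine isUnit_iff_exists_inv.2 ⟨⟨(a : K)⁻¹, h3⟩, ?_⟩
  apply Subtype.ext
  exact mul_inv_cancel₀ ha0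

/-- The induced map of residue fields `k → κ`. -/
def resAO : ResidueField ↥A →+* ResidueField ↥O := ResidueField.map (inclAO hmem)

theorem resAO_residue (a : ↥A) :
    resAO hmem (residue ↥A a) = residue ↥O (inclAO hmem a) :=
  ResidueField.map_residue _ a

theorem mem_of_isON {ι : Type*} [Fintype ι] (f : ι → F)
    (hON : ∀ c : ι → K, (∑ i, c i • f i) ∈ O ↔ ∀ i, c i ∈ A) (i : ι) : f i ∈ O := by
  classical
  have h := (hON (Pi.single i (1 : K) : ι → K)).2 (fun j => by
    by_cases hj : j = i
    · subst hj; simp [A.one_mem]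
    · simp [Pi.single_eq_of_ne hj, A.zero_mem])
  have h1 : (∑ j, (Pi.single i (1 : K) : ι → K) j • f j) = f i := by
    rw [Finset.sum_eq_single i]
    · simp
    · intro j _ hj; simp [Pi.single_eq_of_ne hj]
    · intro hi; exact absurd (Finset.mem_univ i) hi
  rwa [h1] at h

/-- **(R6), residue-field form.**  The reductions of an orthonormal family are linearly
independent over the residue field of `A`. -/
theorem residue_indep (hA : A ≠ ⊤)
    (hscale : ∀ f : F, f ≠ 0 → ∃ c : K, c ≠ 0 ∧ algebraMap K F c * f ∈ O ∧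
      (algebraMap K F c * f)⁻¹ ∈ O)
    {ι : Type*} [Fintype ι] (f : ι → F)
    (hON : ∀ c : ι → K, (∑ i, c i • f i) ∈ O ↔ ∀ i, c i ∈ A)
    (g : ι → ResidueField ↥A)
    (hg : ∑ i, resAO hmem (g i) * residue ↥O ⟨f i, mem_of_isON f hON i⟩ = 0) :
    ∀ i, g i = 0 := by
  choose a ha using fun i => residue_surjective (g i)
  have h1 : residue ↥O (∑ i, inclAO hmem (a i) * ⟨f i, mem_of_isON f hON i⟩) = 0 := by
    rw [map_sum, ← hg]
    refine Finset.sum_congr rfl fun i _ => ?_
    rw [map_mul, ← resAO_residue, ha]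
  rw [residue_eq_zero_iff, mem_maximalIdeal_iff] at h1
  have h2 : ((∑ i, inclAO hmem (a i) * ⟨f i, mem_of_isON f hON i⟩ : ↥O) : F)
      = ∑ i, ((a i : ↥A) : K) • f i := by
    rw [← ValuationSubring.subtype_apply, map_sum]
    refine Finset.sum_congr rfl fun i _ => ?_
    rw [map_mul, Algebra.smul_def]
    rfl
  rw [h2] at h1
  have h3 := coeff_mem_nonunits_of_sum_mem hmem hscale hA f hON _ h1
  intro i
  rw [← ha i, residue_eq_zero_iff]
  have h4 := (ValuationSubring.mem_nonunits_iff_exists_mem_maximalIdeal).1 (h3 i)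
  obtain ⟨_, h5⟩ := h4
  exact h5

end

end Fermat.Agent.S18.H80
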